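/-
S35-GEO, leaf (N1-Z) (helper14): the shifted norm formula in the two-extension setting.

Setting of `Fermat.Agent.S34.H64.TwoExtStatement`: `L/K` of degree `q + 1`, `V` a discrete
valuation subring of `K` of residue characteristic `q`, `O₁ ≠ O₂` the two valuation subrings of
`L` over `V` (`e = 1` for both, `f₁ = 1`, `f₂ = q` purely inseparable), `π` a uniformiser of `V`.
For `u ∈ O₁` with `u / π^k ∈ O₂`:

  `N_{L/K}(u) / π^(q k) ≡ red₁(u) · red₂(u / π^k)^q` modulo the maximal ideal of `V`.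

The proof uses the explicit integral basis `W = {y'^i θ, 1 - θ}` of `O₁ ∩ O₂` from the landed
`Fermat.Agent.S34.H57.exists_core` and the second basis `W_k = {π^k y'^i θ, (1 - θ)^(k+1)}` of
the lattice `{x ∈ O₁ : x / π^k ∈ O₂}`; the residue determinant is computed with the landed
pieces of `Fermat.Agent.S35.H57` (the case `k = 0`).

Exports: `normFormula_shift` (`k : ℕ`, no unit hypothesis), `normFormula_zshift` (`k : ℤ`,
`g` a unit at `O₁` and `g / π^k` a unit at `O₂`: the form needed for Kummer functions, whose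
valuation at the second Gauss ring is an arbitrary integer), `exists_norm_residues_zshift`.
-/
import Mathlib
import Fermat.Agent.S34.H57.TwoExt
import Fermat.Agent.S35.H57.NormFormula

set_option autoImplicit false

namespace Fermat.Agent.S35.H14

open Fermat.Agent.S34.H57

universe u v

section Descent

variable {K : Type*} {L : Type*} [Field K] [Field L] [Algebra K L]
variable {V : ValuationSubring K}

/-- Coefficients of a combination of `1, y, …, y^(q-1)` that is divisible by `π^k` in `O` are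
divisible by `π^k` in `V`. -/
lemma coeff_div_pow_mem {O : ValuationSubring L} (hO : O.comap (algebraMap K L) = V)
    {π : K} (hπ0 : π ≠ 0) (hπV : π ∈ V.nonunits) (hπ : ∀ a ∈ V.nonunits, a / π ∈ V)
    {q : ℕ} (hq : q.Prime) (hqV : (q : K) ∈ V.nonunits)
    {y : L} (hy : y ∈ O) {v : K} (hv : v ∈ V) (hyv : y ^ q - algebraMap K L v ∈ O.nonunits)
    (hyn : ∀ w ∈ V, y - algebraMap K L w ∉ O.nonunits) (k : ℕ) :
    ∀ c : Fin q → K, (∀ i, c i ∈ V) →
      O.valuation (∑ i : Fin q, algebraMap K L (c i) * y ^ (i : ℕ)) ≤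
        O.valuation (algebraMap K L π) ^ k → ∀ i, c i / π ^ k ∈ V := by
  have hP : O.valuation (algebraMap K L π) < 1 := (algebraMap_val_lt_one_iff hO π).2 hπV
  have hP0 : O.valuation (algebraMap K L π) ≠ 0 :=
    (Valuation.ne_zero_iff _).2 ((_root_.map_ne_zero _).2 hπ0)
  induction k with
  | zero =>
    intro c hc _ i
    simpa using hc i
  | succ k ih =>
    intro c hc hs i
    have hlt : O.valuation (∑ i : Fin q, algebraMap K L (c i) * y ^ (i : ℕ)) < 1 := by
      refine lt_of_le_of_lt hs ?_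
      calc O.valuation (algebraMap K L π) ^ (k + 1)
          ≤ O.valuation (algebraMap K L π) ^ 1 :=
            pow_le_pow_right_of_le_one' hP.le (by omega)
        _ < 1 := by rwa [pow_one]
    have hnu := coeff_mem_nonunits_of_sum_mem hO hq hqV hy hv hyv hyn c hc
      ((ValuationSubring.mem_nonunits_iff O).2 hlt)
    have hc' : ∀ i, c i / π ∈ V := fun i => hπ _ (hnu i)
    have hs' : O.valuation (∑ i : Fin q, algebraMap K L (c i / π) * y ^ (i : ℕ)) ≤
        O.valuation (algebraMap K L π) ^ k := by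
      have e : ∑ i : Fin q, algebraMap K L (c i / π) * y ^ (i : ℕ) =
          (∑ i : Fin q, algebraMap K L (c i) * y ^ (i : ℕ)) / algebraMap K L π := by
        rw [Finset.sum_div]
        refine Finset.sum_congr rfl fun i _ => ?_
        rw [map_div₀]
        ring
      rw [e, map_div₀, div_le_iff₀ (zero_lt_iff.2 hP0), ← pow_succ]
      exact hs
    have h3 := ih (fun i => c i / π) hc' hs' i
    rw [pow_succ', ← div_div]
    exact h3

end Descent

section Core

variable {K : Type u} {L : Type v} [Field K] [Field L] [Algebra K L]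

/-- The output of the landed `H57.exists_core`, with the residue hypotheses transported to the
representative `y'`, and the linear independence of the family `W`. -/
structure CoreData (V : ValuationSubring K) (O₁ O₂ : ValuationSubring L) (π : K) (q : ℕ)
    (θ y' : L) : Prop where
  h₁ : O₁.comap (algebraMap K L) = V
  h₂ : O₂.comap (algebraMap K L) = V
  hπ0 : π ≠ 0
  hπV : π ∈ V.nonunits
  hπ : ∀ a ∈ V.nonunits, a / π ∈ V
  hq : q.Prime
  hqV : (q : K) ∈ V.nonunits
  hfin : Module.finrank K L = q + 1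
  hθ1 : O₁.valuation θ ≤ O₁.valuation (algebraMap K L π)
  hθ2 : O₂.valuation (θ - 1) ≤ O₂.valuation (algebraMap K L π)
  hy1 : y' ∈ O₁
  hy2 : y' ∈ O₂
  hyq : ∃ v ∈ V, y' ^ q - algebraMap K L v ∈ O₂.nonunits
  hyn : ∀ w ∈ V, y' - algebraMap K L w ∉ O₂.nonunits
  hexp : ∀ x : L, x ∈ O₁ → x ∈ O₂ →
    ∃ (c : Fin q → K) (d : K), (∀ i, c i ∈ V) ∧ d ∈ V ∧ x = comb θ y' c d
  hli : LinearIndependent K (fam θ y' q)

/-- The core data exist under the hypotheses of the two-extension lemma. -/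
theorem exists_coreData [FiniteDimensional K L] {V : ValuationSubring K}
    {O₁ O₂ : ValuationSubring L} (h₁ : O₁.comap (algebraMap K L) = V)
    (h₂ : O₂.comap (algebraMap K L) = V) (hne : O₁ ≠ O₂)
    {π : K} (hπ0 : π ≠ 0) (hπV : π ∈ V.nonunits) (hπ : ∀ a ∈ V.nonunits, a / π ∈ V)
    {q : ℕ} (hq : q.Prime) (hqV : (q : K) ∈ V.nonunits) (hfin : Module.finrank K L = q + 1)
    {y : L} (hy : y ∈ O₂) (hyq : ∃ v ∈ V, y ^ q - algebraMap K L v ∈ O₂.nonunits)
    (hyn : ∀ w ∈ V, y - algebraMap K L w ∉ O₂.nonunits) :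
    ∃ θ y' : L, CoreData V O₁ O₂ π q θ y' ∧ O₂.valuation (y' - y) < 1 := by
  classical
  obtain ⟨v, hv, hyv⟩ := hyq
  obtain ⟨θ, y', hθ1, hθ2, hy'1, hy'2, hyy, hexp⟩ :=
    exists_core h₁ h₂ hne hπ0 hπV hπ hq hqV hfin hy hv hyv hyn
  have hP1 : O₁.valuation (algebraMap K L π) < 1 := (algebraMap_val_lt_one_iff h₁ π).2 hπV
  have hP2 : O₂.valuation (algebraMap K L π) < 1 := (algebraMap_val_lt_one_iff h₂ π).2 hπV
  have hθ1' : O₁.valuation θ < 1 := lt_of_le_of_lt hθ1 hP1
  have hθ2' : O₂.valuation (θ - 1) < 1 := lt_of_le_of_lt hθ2 hP2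
  refine ⟨θ, y', ⟨h₁, h₂, hπ0, hπV, hπ, hq, hqV, hfin, hθ1, hθ2, hy'1, hy'2, ⟨v, hv, ?_⟩, ?_,
    hexp, ?_⟩, hyy⟩
  · rw [ValuationSubring.mem_nonunits_iff]
    have e : y' ^ q - algebraMap K L v = (y' ^ q - y ^ q) + (y ^ q - algebraMap K L v) := by
      ring
    rw [e]
    exact Valuation.map_add_lt _ (val_pow_sub_pow_lt_one O₂ hy'2 hy hyy q)
      ((ValuationSubring.mem_nonunits_iff O₂).1 hyv)
  · intro w hw hcon
    refine hyn w hw ?_
    rw [ValuationSubring.mem_nonunits_iff] at hcon ⊢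
    have e : y - algebraMap K L w = (y' - algebraMap K L w) - (y' - y) := by ring
    rw [e]
    exact Valuation.map_sub_lt _ hcon hyy
  · have key : ∀ a : Option (Fin q) → K, (∀ o, a o ∈ V) →
        O₁.valuation (∑ o, a o • fam θ y' q o) < 1 →
        O₂.valuation (∑ o, a o • fam θ y' q o) < 1 → ∀ o, a o ∈ V.nonunits := by
      intro a ha hx1 hx2
      rw [sum_smul_fam] at hx1 hx2
      obtain ⟨hc, hd⟩ := coeff_mem_nonunits_of_comb h₁ h₂ hq hqV hy hv hyv hyn hθ1' hθ2' hy'1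
        hy'2 hyy (fun i => a (some i)) (fun i => ha _) (ha none) hx1 hx2
      intro o
      cases o with
      | none => exact hd
      | some i => exact hc i
    have hone : (1 : K) ∉ V.nonunits := by
      rw [ValuationSubring.mem_nonunits_iff, map_one]
      exact lt_irrefl _
    rw [Fintype.linearIndependent_iff]
    intro g hg o₁
    by_contra hne0
    obtain ⟨s, i₀, hs0, hsV, hs1, -⟩ := exists_scale (V := V) g hne0
    have hsum : ∑ o, (s * g o) • fam θ y' q o = 0 := by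
      simp only [mul_smul]
      rw [← Finset.smul_sum, hg, smul_zero]
    have h := key (fun o => s * g o) hsV (by rw [hsum, map_zero]; exact zero_lt_one)
      (by rw [hsum, map_zero]; exact zero_lt_one) i₀
    simp only [hs1] at h
    exact hone h

/-- The element with coordinates `(c, d)` in the family
`W_k = {π^k y'^i θ (i < q), (1 - θ)^(k+1)}`. -/
noncomputable def combk (θ y' : L) (π : K) (k : ℕ) {q : ℕ} (c : Fin q → K) (d : K) : L :=
  (∑ i : Fin q, algebraMap K L (c i) * y' ^ (i : ℕ)) * (algebraMap K L π ^ k * θ) +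
    algebraMap K L d * (1 - θ) ^ (k + 1)

variable {V : ValuationSubring K} {O₁ O₂ : ValuationSubring L} {π : K} {q : ℕ} {θ y' : L}

namespace CoreData

lemma valπ1 (C : CoreData V O₁ O₂ π q θ y') : O₁.valuation (algebraMap K L π) < 1 :=
  (algebraMap_val_lt_one_iff C.h₁ π).2 C.hπV

lemma valπ2 (C : CoreData V O₁ O₂ π q θ y') : O₂.valuation (algebraMap K L π) < 1 :=
  (algebraMap_val_lt_one_iff C.h₂ π).2 C.hπV

lemma valπ2_ne (C : CoreData V O₁ O₂ π q θ y') : O₂.valuation (algebraMap K L π) ≠ 0 :=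
  (Valuation.ne_zero_iff _).2 ((_root_.map_ne_zero _).2 C.hπ0)

lemma valθ1 (C : CoreData V O₁ O₂ π q θ y') : O₁.valuation θ < 1 :=
  lt_of_le_of_lt C.hθ1 C.valπ1

lemma valθ2 (C : CoreData V O₁ O₂ π q θ y') : O₂.valuation (θ - 1) < 1 :=
  lt_of_le_of_lt C.hθ2 C.valπ2

lemma val_one_sub2 (C : CoreData V O₁ O₂ π q θ y') :
    O₂.valuation (1 - θ) ≤ O₂.valuation (algebraMap K L π) := by
  rw [Valuation.map_sub_swap]
  exact C.hθ2

lemma val_one_sub2_lt (C : CoreData V O₁ O₂ π q θ y') : O₂.valuation (1 - θ) < 1 :=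
  lt_of_le_of_lt C.val_one_sub2 C.valπ2

lemma val_one_sub1 (C : CoreData V O₁ O₂ π q θ y') : O₁.valuation (1 - θ) = 1 :=
  Valuation.map_one_sub_of_lt _ C.valθ1

lemma valθ2_eq (C : CoreData V O₁ O₂ π q θ y') : O₂.valuation θ = 1 := by
  have e : θ = 1 - (1 - θ) := by ring
  rw [e]
  exact Valuation.map_one_sub_of_lt _ C.val_one_sub2_lt

lemma θ_mem1 (C : CoreData V O₁ O₂ π q θ y') : θ ∈ O₁ :=
  (O₁.valuation_le_one_iff _).1 C.valθ1.le

lemma θ_mem2 (C : CoreData V O₁ O₂ π q θ y') : θ ∈ O₂ :=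
  (O₂.valuation_le_one_iff _).1 C.valθ2_eq.le

lemma one_sub_mem1 (C : CoreData V O₁ O₂ π q θ y') : 1 - θ ∈ O₁ :=
  (O₁.valuation_le_one_iff _).1 C.val_one_sub1.le

lemma one_sub_mem2 (C : CoreData V O₁ O₂ π q θ y') : 1 - θ ∈ O₂ :=
  (O₂.valuation_le_one_iff _).1 C.val_one_sub2_lt.le

/-- (i) the expansion of `(1 - θ)^(k+1)` in `W`; its last coordinate is `≡ 1`. -/
lemma exists_one_sub_pow (C : CoreData V O₁ O₂ π q θ y') (k : ℕ) :
    ∃ (a : Fin q → K) (b : K), (∀ i, a i ∈ V) ∧ b ∈ V ∧ (1 - θ) ^ (k + 1) = comb θ y' a b ∧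
      b - 1 ∈ V.nonunits := by
  obtain ⟨a, b, ha, hb, hab⟩ := C.hexp _ (pow_mem C.one_sub_mem1 _) (pow_mem C.one_sub_mem2 _)
  refine ⟨a, b, ha, hb, hab, ?_⟩
  rw [← algebraMap_val_lt_one_iff C.h₁]
  have e : algebraMap K L (b - 1) =
      ((1 - θ) ^ (k + 1) - 1 ^ (k + 1)) - (comb θ y' a b - algebraMap K L b) := by
    rw [map_sub, map_one, ← hab]
    ring
  rw [e]
  refine Valuation.map_sub_lt _ ?_ (lt_of_le_of_lt (val_comb_sub_le C.h₁ C.hy1 a ha hb) C.valθ1)
  refine val_pow_sub_pow_lt_one O₁ C.one_sub_mem1 O₁.one_mem ?_ _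
  have e2 : (1 : L) - θ - 1 = -θ := by ring
  rw [e2, Valuation.map_neg]
  exact C.valθ1

/-- (ii) the lattice `{x ∈ O₁ : x / π^k ∈ O₂}` is spanned over `V` by `W_k`. -/
lemma exists_combk (C : CoreData V O₁ O₂ π q θ y') (k : ℕ) {x : L} (hx1 : x ∈ O₁)
    (hx2 : O₂.valuation x ≤ O₂.valuation (algebraMap K L π) ^ k) :
    ∃ (c : Fin q → K) (d : K), (∀ i, c i ∈ V) ∧ d ∈ V ∧ x = combk θ y' π k c d := by
  have hpow_le : ∀ n : ℕ, O₂.valuation (algebraMap K L π) ^ n ≤ 1 := fun n =>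
    pow_le_one' C.valπ2.le n
  have hx2' : x ∈ O₂ := (O₂.valuation_le_one_iff _).1 (hx2.trans (hpow_le k))
  obtain ⟨c₀, d₀, hc₀, hd₀, hx⟩ := C.hexp x hx1 hx2'
  obtain ⟨a, b, ha, hb, hab, hb1⟩ := C.exists_one_sub_pow k
  -- `b` is a unit of `V`
  have hbv : V.valuation b = 1 := by
    have e : b = 1 + (b - 1) := by ring
    rw [e]
    exact Valuation.map_one_add_of_lt _ ((ValuationSubring.mem_nonunits_iff V).1 hb1)
  have hb0 : b ≠ 0 := fun h => by
    rw [h, map_zero] at hbv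
    exact zero_ne_one hbv
  have hbinv : b⁻¹ ∈ V := by
    rw [← V.valuation_le_one_iff, map_inv₀, hbv, inv_one]
  set d : K := d₀ * b⁻¹ with hd
  have hdV : d ∈ V := V.mul_mem _ _ hd₀ hbinv
  set c₁ : Fin q → K := fun i => c₀ i - d * a i with hc₁
  have hc₁V : ∀ i, c₁ i ∈ V := fun i => V.sub_mem (hc₀ i) (V.mul_mem _ _ hdV (ha i))
  -- `x = (∑ c₁ y'^i) θ + d (1 - θ)^(k+1)`
  have hx' : x = (∑ i : Fin q, algebraMap K L (c₁ i) * y' ^ (i : ℕ)) * θ +
      algebraMap K L d * (1 - θ) ^ (k + 1) := by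
    have e1 : ∑ i : Fin q, algebraMap K L (c₁ i) * y' ^ (i : ℕ) =
        ∑ i : Fin q, algebraMap K L (c₀ i) * y' ^ (i : ℕ) -
          algebraMap K L d * ∑ i : Fin q, algebraMap K L (a i) * y' ^ (i : ℕ) := by
      rw [Finset.mul_sum, ← Finset.sum_sub_distrib]
      refine Finset.sum_congr rfl fun i _ => ?_
      simp only [hc₁, map_sub, map_mul]
      ring
    have e2 : algebraMap K L d * algebraMap K L b = algebraMap K L d₀ := by
      rw [← map_mul, hd, mul_assoc, inv_mul_cancel₀ hb0, mul_one]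
    rw [e1, hab, hx]
    simp only [comb]
    linear_combination (-(1 - θ)) * e2
  -- the valuation of `∑ c₁ y'^i`
  have hS : O₂.valuation (∑ i : Fin q, algebraMap K L (c₁ i) * y' ^ (i : ℕ)) ≤
      O₂.valuation (algebraMap K L π) ^ k := by
    have e : (∑ i : Fin q, algebraMap K L (c₁ i) * y' ^ (i : ℕ)) * θ =
        x - algebraMap K L d * (1 - θ) ^ (k + 1) := by
      rw [hx']
      ring
    have h1 : O₂.valuation (∑ i : Fin q, algebraMap K L (c₁ i) * y' ^ (i : ℕ)) =
        O₂.valuation ((∑ i : Fin q, algebraMap K L (c₁ i) * y' ^ (i : ℕ)) * θ) := by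
      rw [map_mul, C.valθ2_eq, mul_one]
    rw [h1, e]
    refine (Valuation.map_sub _ _ _).trans (max_le hx2 ?_)
    rw [map_mul, map_pow]
    have hd1 : O₂.valuation (algebraMap K L d) ≤ 1 :=
      (O₂.valuation_le_one_iff _).2 ((algebraMap_mem_iff C.h₂ _).2 hdV)
    calc O₂.valuation (algebraMap K L d) * O₂.valuation (1 - θ) ^ (k + 1)
        ≤ 1 * O₂.valuation (algebraMap K L π) ^ (k + 1) :=
          mul_le_mul' hd1 (pow_le_pow_left' C.val_one_sub2 _)
      _ = O₂.valuation (algebraMap K L π) ^ k * O₂.valuation (algebraMap K L π) := by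
          rw [one_mul, pow_succ]
      _ ≤ O₂.valuation (algebraMap K L π) ^ k * 1 := mul_le_mul' le_rfl C.valπ2.le
      _ = O₂.valuation (algebraMap K L π) ^ k := mul_one _
  obtain ⟨v, hv, hyv⟩ := C.hyq
  have hdiv := coeff_div_pow_mem C.h₂ C.hπ0 C.hπV C.hπ C.hq C.hqV C.hy2 hv hyv C.hyn k c₁ hc₁V hS
  refine ⟨fun i => c₁ i / π ^ k, d, hdiv, hdV, ?_⟩
  rw [hx']
  simp only [combk]
  congr 1
  rw [Finset.sum_mul, Finset.sum_mul]
  refine Finset.sum_congr rfl fun i _ => ?_
  have hπL : algebraMap K L π ^ k ≠ 0 := pow_ne_zero _ ((_root_.map_ne_zero _).2 C.hπ0)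
  rw [map_div₀, map_pow]
  field_simp

lemma val_combk_sub_lt_one (C : CoreData V O₁ O₂ π q θ y') (k : ℕ) (c : Fin q → K)
    (hc : ∀ i, c i ∈ V) {d : K} (hd : d ∈ V) :
    O₁.valuation (combk θ y' π k c d - algebraMap K L d) < 1 := by
  have e : combk θ y' π k c d - algebraMap K L d =
      (∑ i : Fin q, algebraMap K L (c i) * y' ^ (i : ℕ)) * (algebraMap K L π ^ k * θ) +
        algebraMap K L d * ((1 - θ) ^ (k + 1) - 1 ^ (k + 1)) := by
    simp only [combk]
    ring
  rw [e]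
  refine Valuation.map_add_lt _ ?_ ?_
  · refine val_mul_lt_one O₁ ((O₁.valuation_le_one_iff _).2 (sum_mem_of_coeff C.h₁ C.hy1 c hc)) ?_
    refine val_mul_lt_one O₁ ?_ C.valθ1
    rw [map_pow]
    exact pow_le_one' C.valπ1.le k
  · refine val_mul_lt_one O₁ ((O₁.valuation_le_one_iff _).2 ((algebraMap_mem_iff C.h₁ _).2 hd)) ?_
    refine val_pow_sub_pow_lt_one O₁ C.one_sub_mem1 O₁.one_mem ?_ _
    have e2 : (1 : L) - θ - 1 = -θ := by ring
    rw [e2, Valuation.map_neg]
    exact C.valθ1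

end CoreData

end Core

/-- **(MAT)** the residue determinant lemma: a matrix with entries in `V` which modulo the
maximal ideal is block diagonal, with `none`-entry `≡ v₁` and whose `some`-block represents,
modulo the maximal ideal of `O₂`, the multiplication by `w` on `1, y, …, y^(q-1)`, has
determinant `≡ v₁ · v₂` where `v₂ ≡ w^q`.  (Assembled from the landed pieces of
`Fermat.Agent.S35.H57`.) -/
theorem det_sub_mem_nonunits {K : Type u} {L : Type v} [Field K] [Field L] [Algebra K L]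
    {V : ValuationSubring K} {O₂ : ValuationSubring L} (h₂ : O₂.comap (algebraMap K L) = V)
    {q : ℕ} (hq : q.Prime) (hqV : (q : K) ∈ V.nonunits)
    {y : L} (hy : y ∈ O₂) {v : K} (hv : v ∈ V) (hyv : y ^ q - algebraMap K L v ∈ O₂.nonunits)
    (hyn : ∀ w ∈ V, y - algebraMap K L w ∉ O₂.nonunits)
    (A : Matrix (Option (Fin q)) (Option (Fin q)) K) (hA : ∀ i j, A i j ∈ V)
    {v₁ v₂ : K} (hv₁ : v₁ ∈ V) (hv₂ : v₂ ∈ V) {w : L} (hw : w ∈ O₂)
    (hw2 : w ^ q - algebraMap K L v₂ ∈ O₂.nonunits)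
    (hcol : ∀ i : Fin q, A (some i) none ∈ V.nonunits)
    (hrow : ∀ j : Fin q, A none (some j) ∈ V.nonunits) (hnn : A none none - v₁ ∈ V.nonunits)
    (hblock : ∀ j : Fin q, w * y ^ (j : ℕ) -
      ∑ i : Fin q, algebraMap K L (A (some i) (some j)) * y ^ (i : ℕ) ∈ O₂.nonunits) :
    A.det ∈ V ∧ A.det - v₁ * v₂ ∈ V.nonunits := by
  classical
  rw [ValuationSubring.mem_nonunits_iff] at hw2
  let MV : Matrix (Option (Fin q)) (Option (Fin q)) V := Matrix.of fun i j => ⟨A i j, hA i j⟩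
  have hAM : A = V.subtype.mapMatrix MV := by
    ext i j
    rfl
  have hdetA : A.det = ((MV.det : V) : K) := by
    rw [hAM, ← RingHom.map_det]
    rfl
  have c1 : ∀ i : Fin q, MV (some i) none ∈ IsLocalRing.maximalIdeal V := fun i =>
    ValuationSubring.coe_mem_nonunits_iff.1 (hcol i)
  have c3 : ∀ j : Fin q, MV none (some j) ∈ IsLocalRing.maximalIdeal V := fun j =>
    ValuationSubring.coe_mem_nonunits_iff.1 (hrow j)
  have c2 : MV none none - ⟨v₁, hv₁⟩ ∈ IsLocalRing.maximalIdeal V :=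
    ValuationSubring.coe_mem_nonunits_iff.1 hnn
  have c4 : ∀ j : Fin q, O₂.valuation (w * y ^ (j : ℕ) -
      ∑ i : Fin q, algebraMap K L ((MV (some i) (some j) : V) : K) * y ^ (i : ℕ)) < 1 :=
    fun j => (ValuationSubring.mem_nonunits_iff O₂).1 (hblock j)
  have c6 : ∀ i j : Fin q, ((Matrix.of fun i j : Fin q => MV (some i) (some j)) ^ q) i j -
      (if i = j then (⟨v₂, hv₂⟩ : V) else 0) ∈ IsLocalRing.maximalIdeal V := by
    intro i j
    have hpow := Fermat.Agent.S35.H57.val_pow_mul_sub_lt_one h₂ (y := y) hw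
      (Matrix.of fun i j : Fin q => MV (some i) (some j)) c4 q j
    set D : Matrix (Fin q) (Fin q) V := (Matrix.of fun i j : Fin q => MV (some i) (some j)) ^ q
      with hD
    have hcV : ∀ k : Fin q, ((D k j : V) : K) - (if k = j then v₂ else 0) ∈ V := fun k =>
      sub_mem (D k j).2 (by split_ifs; exacts [hv₂, V.zero_mem])
    have hs : ∑ k : Fin q, algebraMap K L (((D k j : V) : K) - (if k = j then v₂ else 0)) *
        y ^ (k : ℕ) ∈ O₂.nonunits := by
      rw [ValuationSubring.mem_nonunits_iff]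
      have e : ∑ k : Fin q, algebraMap K L (((D k j : V) : K) - (if k = j then v₂ else 0)) *
          y ^ (k : ℕ) = y ^ (j : ℕ) * (w ^ q - algebraMap K L v₂) - (w ^ q * y ^ (j : ℕ) -
            ∑ k : Fin q, algebraMap K L ((D k j : V) : K) * y ^ (k : ℕ)) := by
        have e' : ∑ k : Fin q, algebraMap K L (if k = j then v₂ else 0) * y ^ (k : ℕ) =
            algebraMap K L v₂ * y ^ (j : ℕ) := by
          rw [Finset.sum_eq_single j]
          · rw [if_pos rfl]
          · intro k _ hkj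
            rw [if_neg hkj, map_zero, zero_mul]
          · intro h
            exact absurd (Finset.mem_univ j) h
        simp only [map_sub, sub_mul, Finset.sum_sub_distrib]
        rw [e']
        ring
      rw [e]
      exact Valuation.map_sub_lt _
        (val_mul_lt_one O₂ ((O₂.valuation_le_one_iff _).2 (pow_mem hy _)) hw2) hpow
    have hY := coeff_mem_nonunits_of_sum_mem h₂ hq hqV hy hv hyv hyn
      (fun k => ((D k j : V) : K) - (if k = j then v₂ else 0)) hcV hs i
    rw [← ValuationSubring.coe_mem_nonunits_iff]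
    have e'' : ((D i j - (if i = j then (⟨v₂, hv₂⟩ : V) else 0) : V) : K) =
        ((D i j : V) : K) - (if i = j then v₂ else 0) := by
      split_ifs <;> rfl
    rw [e'']
    exact hY
  have hqR : ((q : ℕ) : V) ∈ IsLocalRing.maximalIdeal V := by
    rw [← ValuationSubring.coe_mem_nonunits_iff]
    exact hqV
  have hdet := Fermat.Agent.S35.H57.det_sub_mem hq hqR MV ⟨v₁, hv₁⟩ ⟨v₂, hv₂⟩ c1 c2 c3 c6
  rw [hdetA]
  refine ⟨(MV.det).2, ?_⟩
  rw [← ValuationSubring.coe_mem_nonunits_iff] at hdet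
  exact hdet

/-- Determinant of a matrix indexed by `Option n` which is upper triangular for the order
`some i < none`. -/
lemma det_option_of_triangular {n : Type*} [Fintype n] [DecidableEq n] [LinearOrder n]
    {R : Type*} [CommRing R] (M : Matrix (Option n) (Option n) R)
    (h1 : ∀ j, M none (some j) = 0) (h2 : ∀ i j, j < i → M (some i) (some j) = 0) :
    M.det = M none none * ∏ i, M (some i) (some i) := by
  let M' : Matrix (WithTop n) (WithTop n) R := M
  have hT : M'.IsUpperTriangular := by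
    intro i j hij
    cases i with
    | top =>
      cases j with
      | top => exact absurd hij (lt_irrefl _)
      | coe j' => exact h1 j'
    | coe i' =>
      cases j with
      | top => exact absurd hij not_top_lt
      | coe j' => exact h2 i' j' (WithTop.coe_lt_coe.1 hij)
  have h := Matrix.det_of_isUpperTriangular hT
  have h' : M.det = ∏ i : Option n, M i i := h
  rw [h', Fintype.prod_option]

section Shift

variable {K : Type u} {L : Type v} [Field K] [Field L] [Algebra K L]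
variable {V : ValuationSubring K} {O₁ O₂ : ValuationSubring L} {π : K} {q : ℕ} {θ y' : L}

/-- **The shifted norm formula, `k ≥ 0`**, from the core data. -/
theorem norm_shift_of_core [FiniteDimensional K L]
    (C : CoreData V O₁ O₂ π q θ y') (k : ℕ) {g : L} (hg₁ : g ∈ O₁)
    (hg₂ : g / algebraMap K L π ^ k ∈ O₂) {v₁ v₂ : K} (hv₁ : v₁ ∈ V) (hv₂ : v₂ ∈ V)
    (h1 : g - algebraMap K L v₁ ∈ O₁.nonunits)
    (h2 : (g / algebraMap K L π ^ k) ^ q - algebraMap K L v₂ ∈ O₂.nonunits) :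
    Algebra.norm K g / π ^ (q * k) - v₁ * v₂ ∈ V.nonunits := by
  classical
  have hπL : algebraMap K L π ≠ 0 := (_root_.map_ne_zero _).2 C.hπ0
  have hπk : algebraMap K L π ^ k ≠ 0 := pow_ne_zero _ hπL
  have hvπ : 0 < O₂.valuation (algebraMap K L π) ^ k :=
    pow_pos (zero_lt_iff.2 C.valπ2_ne) k
  have hgv : O₂.valuation g ≤ O₂.valuation (algebraMap K L π) ^ k := by
    have h := (O₂.valuation_le_one_iff _).2 hg₂
    rw [map_div₀, map_pow, div_le_one₀ hvπ] at h
    exact h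
  -- the basis `W`
  have hcard : Fintype.card (Option (Fin q)) = Module.finrank K L := by
    rw [Fintype.card_option, Fintype.card_fin, C.hfin]
  let b := basisOfLinearIndependentOfCardEqFinrank C.hli hcard
  have hb : ⇑b = fam θ y' q := coe_basisOfLinearIndependentOfCardEqFinrank C.hli hcard
  have hfam1 : ∀ o, fam θ y' q o ∈ O₁ := by
    intro o
    cases o with
    | none => exact C.one_sub_mem1
    | some i => exact O₁.mul_mem _ _ (pow_mem C.hy1 _) C.θ_mem1
  have hfam2 : ∀ o, fam θ y' q o ∈ O₂ := by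
    intro o
    cases o with
    | none => exact C.one_sub_mem2
    | some i => exact O₂.mul_mem _ _ (pow_mem C.hy2 _) C.θ_mem2
  -- expansions of `g * W_j` in `W_k`
  have hex : ∀ o, ∃ (c : Fin q → K) (d : K), (∀ i, c i ∈ V) ∧ d ∈ V ∧
      g * fam θ y' q o = combk θ y' π k c d := by
    intro o
    refine C.exists_combk k (O₁.mul_mem _ _ hg₁ (hfam1 o)) ?_
    rw [map_mul]
    calc O₂.valuation g * O₂.valuation (fam θ y' q o)
        ≤ O₂.valuation (algebraMap K L π) ^ k * 1 :=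
          mul_le_mul' hgv ((O₂.valuation_le_one_iff _).2 (hfam2 o))
      _ = _ := mul_one _
  choose c d hc hd hcd using hex
  obtain ⟨a, b₀, ha, hb₀, hab, hb1⟩ := C.exists_one_sub_pow k
  let A : Matrix (Option (Fin q)) (Option (Fin q)) K :=
    fun i j => i.elim (d j) (fun i' => c j i')
  let P : Matrix (Option (Fin q)) (Option (Fin q)) K := fun i j =>
    i.elim (j.elim b₀ (fun _ => 0))
      (fun i' => j.elim (a i') (fun j' => if i' = j' then π ^ k else 0))
  have hPA_none : ∀ j, (P * A) none j = b₀ * d j := by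
    intro j
    rw [Matrix.mul_apply, Fintype.sum_option]
    simp [P, A]
  have hPA_some : ∀ l j, (P * A) (some l) j = a l * d j + π ^ k * c j l := by
    intro l j
    rw [Matrix.mul_apply, Fintype.sum_option]
    simp [P, A]
  have hmul : ∀ j, g * b j = ∑ l, (P * A) l j • b l := by
    intro j
    rw [hb, hcd j, Fintype.sum_option, hPA_none]
    simp only [hPA_some, fam, Option.elim, Algebra.smul_def, combk, map_add, map_mul, map_pow]
    rw [hab]
    simp only [comb, add_mul, Finset.sum_add_distrib]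
    have e1 : ∑ l : Fin q, algebraMap K L (a l) * algebraMap K L (d j) * (y' ^ (l : ℕ) * θ) =
        algebraMap K L (d j) * ((∑ l : Fin q, algebraMap K L (a l) * y' ^ (l : ℕ)) * θ) := by
      rw [Finset.sum_mul, Finset.mul_sum]
      exact Finset.sum_congr rfl fun l _ => by ring
    have e2 : ∑ l : Fin q, algebraMap K L π ^ k * algebraMap K L (c j l) * (y' ^ (l : ℕ) * θ) =
        (∑ l : Fin q, algebraMap K L (c j l) * y' ^ (l : ℕ)) * (algebraMap K L π ^ k * θ) := by
      rw [Finset.sum_mul]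
      exact Finset.sum_congr rfl fun l _ => by ring
    rw [e1, e2]
    ring
  have hleft : Algebra.leftMulMatrix b g = P * A := by
    ext l j
    rw [Algebra.leftMulMatrix_eq_repr_mul, hmul j, Module.Basis.repr_sum_self]
  have hdetP : P.det = b₀ * (π ^ k) ^ q := by
    rw [det_option_of_triangular P (fun j => rfl) (fun i j hij => by
      show (if i = j then π ^ k else 0) = 0
      rw [if_neg (ne_of_gt hij)])]
    simp [P]
  -- the three properties of `A`
  have hA : ∀ i j, A i j ∈ V := by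
    intro i j
    cases i with
    | none => exact hd j
    | some i' => exact hc j i'
  have hval_g1 : O₁.valuation g ≤ 1 := (O₁.valuation_le_one_iff _).2 hg₁
  have ha' : ∀ j : Fin q, A none (some j) ∈ V.nonunits := by
    intro j
    show d (some j) ∈ V.nonunits
    rw [← algebraMap_val_lt_one_iff C.h₁]
    have e : algebraMap K L (d (some j)) = g * fam θ y' q (some j) -
        (combk θ y' π k (c (some j)) (d (some j)) - algebraMap K L (d (some j))) := by
      rw [hcd (some j)]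
      ring
    rw [e]
    refine Valuation.map_sub_lt _ ?_ (C.val_combk_sub_lt_one k _ (hc _) (hd _))
    refine val_mul_lt_one O₁ hval_g1 ?_
    show O₁.valuation (y' ^ (j : ℕ) * θ) < 1
    exact val_mul_lt_one O₁ ((O₁.valuation_le_one_iff _).2 (pow_mem C.hy1 _)) C.valθ1
  have hb' : A none none - v₁ ∈ V.nonunits := by
    show d none - v₁ ∈ V.nonunits
    rw [← algebraMap_val_lt_one_iff C.h₁]
    have e : algebraMap K L (d none - v₁) = (g - algebraMap K L v₁) - g * θ -
        (combk θ y' π k (c none) (d none) - algebraMap K L (d none)) := by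
      rw [← hcd none, map_sub]
      show _ = g - algebraMap K L v₁ - g * θ - (g * (1 - θ) - algebraMap K L (d none))
      ring
    rw [e]
    refine Valuation.map_sub_lt _ (Valuation.map_sub_lt _
      ((ValuationSubring.mem_nonunits_iff O₁).1 h1) (val_mul_lt_one O₁ hval_g1 C.valθ1))
      (C.val_combk_sub_lt_one k _ (hc _) (hd _))
  have hquot : O₂.valuation ((1 - θ) ^ (k + 1) / algebraMap K L π ^ k) < 1 := by
    rw [map_div₀, map_pow, map_pow, div_lt_one₀ hvπ]
    calc O₂.valuation (1 - θ) ^ (k + 1)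
        ≤ O₂.valuation (algebraMap K L π) ^ (k + 1) := pow_le_pow_left' C.val_one_sub2 _
      _ = O₂.valuation (algebraMap K L π) ^ k * O₂.valuation (algebraMap K L π) := pow_succ _ _
      _ < O₂.valuation (algebraMap K L π) ^ k * 1 := by
          exact mul_lt_mul_of_pos_left C.valπ2 hvπ
      _ = _ := mul_one _
  have hc' : ∀ j : Fin q, g / algebraMap K L π ^ k * y' ^ (j : ℕ) -
      ∑ i : Fin q, algebraMap K L (A (some i) (some j)) * y' ^ (i : ℕ) ∈ O₂.nonunits := by
    intro j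
    show g / algebraMap K L π ^ k * y' ^ (j : ℕ) -
      ∑ i : Fin q, algebraMap K L (c (some j) i) * y' ^ (i : ℕ) ∈ O₂.nonunits
    have hS : ∑ i : Fin q, algebraMap K L (c (some j) i) * y' ^ (i : ℕ) ∈ O₂ :=
      sum_mem_of_coeff C.h₂ C.hy2 _ (hc _)
    have hwy : g / algebraMap K L π ^ k * y' ^ (j : ℕ) -
        ∑ i : Fin q, algebraMap K L (c (some j) i) * y' ^ (i : ℕ) ∈ O₂ :=
      O₂.sub_mem (O₂.mul_mem _ _ hg₂ (pow_mem C.hy2 _)) hS
    have hj : g * (y' ^ (j : ℕ) * θ) = combk θ y' π k (c (some j)) (d (some j)) := hcd (some j)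
    simp only [combk] at hj
    have e : g / algebraMap K L π ^ k * y' ^ (j : ℕ) -
        ∑ i : Fin q, algebraMap K L (c (some j) i) * y' ^ (i : ℕ) =
        (g / algebraMap K L π ^ k * y' ^ (j : ℕ) -
          ∑ i : Fin q, algebraMap K L (c (some j) i) * y' ^ (i : ℕ)) * (1 - θ) +
        algebraMap K L (d (some j)) * ((1 - θ) ^ (k + 1) / algebraMap K L π ^ k) := by
      field_simp
      linear_combination hj
    rw [ValuationSubring.mem_nonunits_iff, e]
    exact Valuation.map_add_lt _ (val_mul_lt_one O₂ ((O₂.valuation_le_one_iff _).2 hwy)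
      C.val_one_sub2_lt) (val_mul_lt_one O₂
      ((O₂.valuation_le_one_iff _).2 ((algebraMap_mem_iff C.h₂ _).2 (hd _))) hquot)
  obtain ⟨v, hv, hyv⟩ := C.hyq
  have hcol : ∀ i : Fin q, A (some i) none ∈ V.nonunits := by
    show ∀ i : Fin q, c none i ∈ V.nonunits
    refine coeff_mem_nonunits_of_sum_mem C.h₂ C.hq C.hqV C.hy2 hv hyv C.hyn (c none) (hc none) ?_
    have hn : g * (1 - θ) = combk θ y' π k (c none) (d none) := hcd none
    simp only [combk] at hn
    have e : (∑ i : Fin q, algebraMap K L (c none i) * y' ^ (i : ℕ)) * θ =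
        g / algebraMap K L π ^ k * (1 - θ) -
          algebraMap K L (d none) * ((1 - θ) ^ (k + 1) / algebraMap K L π ^ k) := by
      field_simp
      linear_combination -hn
    have h3 : O₂.valuation (∑ i : Fin q, algebraMap K L (c none i) * y' ^ (i : ℕ)) =
        O₂.valuation ((∑ i : Fin q, algebraMap K L (c none i) * y' ^ (i : ℕ)) * θ) := by
      rw [map_mul, C.valθ2_eq, mul_one]
    rw [ValuationSubring.mem_nonunits_iff, h3, e]
    refine Valuation.map_sub_lt _ (val_mul_lt_one O₂ ((O₂.valuation_le_one_iff _).2 hg₂)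
      C.val_one_sub2_lt) (val_mul_lt_one O₂
      ((O₂.valuation_le_one_iff _).2 ((algebraMap_mem_iff C.h₂ _).2 (hd _))) hquot)
  obtain ⟨hdetV, hdet⟩ := det_sub_mem_nonunits C.h₂ C.hq C.hqV C.hy2 hv hyv C.hyn A hA hv₁ hv₂
    hg₂ h2 hcol ha' hb' hc'
  -- conclusion
  have hπkq : (π ^ k) ^ q ≠ 0 := pow_ne_zero _ (pow_ne_zero _ C.hπ0)
  have hN : Algebra.norm K g / π ^ (q * k) = b₀ * A.det := by
    rw [Algebra.norm_eq_matrix_det b g, hleft, Matrix.det_mul, hdetP, mul_comm q k, pow_mul]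
    field_simp
  rw [hN, ValuationSubring.mem_nonunits_iff]
  have e : b₀ * A.det - v₁ * v₂ = (b₀ - 1) * A.det + (A.det - v₁ * v₂) := by ring
  rw [e]
  refine Valuation.map_add_lt _ ?_ ((ValuationSubring.mem_nonunits_iff V).1 hdet)
  rw [mul_comm]
  exact val_mul_lt_one V ((V.valuation_le_one_iff _).2 hdetV)
    ((ValuationSubring.mem_nonunits_iff V).1 hb1)

end Shift

section Units

variable {L : Type*} [Field L]

/-- An element congruent to a unit is a unit. -/
lemma val_eq_one_of_sub_lt (O : ValuationSubring L) {x r : L} (hx : O.valuation x = 1)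
    (h : O.valuation (x - r) < 1) : O.valuation r = 1 := by
  have e : r = x - (x - r) := by ring
  rw [e, Valuation.map_sub_eq_of_lt_left _ (by rw [hx]; exact h), hx]

/-- Inverses of congruent units are congruent. -/
lemma val_inv_sub_inv_lt (O : ValuationSubring L) {x r : L} (hx : O.valuation x = 1)
    (hr : O.valuation r = 1) (h : O.valuation (x - r) < 1) : O.valuation (x⁻¹ - r⁻¹) < 1 := by
  have hx0 : x ≠ 0 := fun h0 => by
    rw [h0, map_zero] at hx
    exact zero_ne_one hx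
  have hr0 : r ≠ 0 := fun h0 => by
    rw [h0, map_zero] at hr
    exact zero_ne_one hr
  have e : x⁻¹ - r⁻¹ = -((x - r) * (x⁻¹ * r⁻¹)) := by
    field_simp
    ring
  rw [e, Valuation.map_neg, map_mul, map_mul, map_inv₀, map_inv₀, hx, hr, inv_one, mul_one,
    mul_one]
  exact h

end Units

section Statements

/-- **(N1-shift), `k ≥ 0`.**  Hypotheses of `Fermat.Agent.S34.H64.TwoExtStatement`, `π` a
uniformiser of `V`.  For `g ∈ O₁` with `g / π^k ∈ O₂`, `g ≡ v₁ (mod m₁)` and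
`(g / π^k)^q ≡ v₂ (mod m₂)`:  `N_{L/K}(g) / π^(q k) ∈ V` and `≡ v₁ v₂` modulo the maximal ideal
of `V`.  (For `k = 0` this is `Fermat.Agent.S35.H57.normFormula`.) -/
theorem normFormula_shift (K : Type u) (L : Type v) [Field K] [Field L] [Algebra K L]
    [FiniteDimensional K L] (V : ValuationSubring K) (q : ℕ)
    (hq : q.Prime) (hqV : (q : K) ∈ V.nonunits) (hfin : Module.finrank K L = q + 1)
    (O₁ O₂ : ValuationSubring L) (h₁ : O₁.comap (algebraMap K L) = V)
    (h₂ : O₂.comap (algebraMap K L) = V) (hne : O₁ ≠ O₂) (y : L) (hy : y ∈ O₂)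
    (hyq : ∃ v ∈ V, y ^ q - algebraMap K L v ∈ O₂.nonunits)
    (hyn : ∀ v ∈ V, y - algebraMap K L v ∉ O₂.nonunits)
    (π : K) (hπ0 : π ≠ 0) (hπV : π ∈ V.nonunits) (hπ : ∀ a ∈ V.nonunits, a / π ∈ V)
    (k : ℕ) (g : L) (hg₁ : g ∈ O₁) (hg₂ : g / algebraMap K L π ^ k ∈ O₂)
    (v₁ v₂ : K) (hv₁ : v₁ ∈ V) (hv₂ : v₂ ∈ V) (h1 : g - algebraMap K L v₁ ∈ O₁.nonunits)
    (h2 : (g / algebraMap K L π ^ k) ^ q - algebraMap K L v₂ ∈ O₂.nonunits) :
    Algebra.norm K g / π ^ (q * k) ∈ V ∧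
      Algebra.norm K g / π ^ (q * k) - v₁ * v₂ ∈ V.nonunits := by
  obtain ⟨θ, y', C, -⟩ := exists_coreData h₁ h₂ hne hπ0 hπV hπ hq hqV hfin hy hyq hyn
  have h := norm_shift_of_core C k hg₁ hg₂ hv₁ hv₂ h1 h2
  refine ⟨?_, h⟩
  have e : Algebra.norm K g / π ^ (q * k) =
      (Algebra.norm K g / π ^ (q * k) - v₁ * v₂) + v₁ * v₂ := by ring
  rw [e]
  exact V.add_mem _ _ (V.nonunits_subset h) (V.mul_mem _ _ hv₁ hv₂)

/-- **(N1-Z) The shifted norm formula for units, `k ∈ ℤ`.**  Hypotheses of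
`Fermat.Agent.S34.H64.TwoExtStatement`, `π` a uniformiser of `V`.  If `g` is a unit at `O₁`,
`g / π^k` is a unit at `O₂`, `g ≡ v₁ (mod m₁)` and `(g / π^k)^q ≡ v₂ (mod m₂)`, then
`N_{L/K}(g) / π^(q k)` is a unit of `V`, congruent to `v₁ v₂`. -/
theorem normFormula_zshift (K : Type u) (L : Type v) [Field K] [Field L] [Algebra K L]
    [FiniteDimensional K L] (V : ValuationSubring K) (q : ℕ)
    (hq : q.Prime) (hqV : (q : K) ∈ V.nonunits) (hfin : Module.finrank K L = q + 1)
    (O₁ O₂ : ValuationSubring L) (h₁ : O₁.comap (algebraMap K L) = V)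
    (h₂ : O₂.comap (algebraMap K L) = V) (hne : O₁ ≠ O₂) (y : L) (hy : y ∈ O₂)
    (hyq : ∃ v ∈ V, y ^ q - algebraMap K L v ∈ O₂.nonunits)
    (hyn : ∀ v ∈ V, y - algebraMap K L v ∉ O₂.nonunits)
    (π : K) (hπ0 : π ≠ 0) (hπV : π ∈ V.nonunits) (hπ : ∀ a ∈ V.nonunits, a / π ∈ V)
    (k : ℤ) (g : L) (hg₁ : O₁.valuation g = 1)
    (hg₂ : O₂.valuation (g / algebraMap K L π ^ k) = 1)
    (v₁ v₂ : K) (hv₁ : v₁ ∈ V) (hv₂ : v₂ ∈ V) (h1 : g - algebraMap K L v₁ ∈ O₁.nonunits)
    (h2 : (g / algebraMap K L π ^ k) ^ q - algebraMap K L v₂ ∈ O₂.nonunits) :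
    V.valuation (Algebra.norm K g / π ^ ((q : ℤ) * k)) = 1 ∧
      Algebra.norm K g / π ^ ((q : ℤ) * k) - v₁ * v₂ ∈ V.nonunits := by
  rw [ValuationSubring.mem_nonunits_iff] at h1 h2
  -- the residues are units
  have hr1 : O₁.valuation (algebraMap K L v₁) = 1 := val_eq_one_of_sub_lt O₁ hg₁ h1
  have hw : O₂.valuation ((g / algebraMap K L π ^ k) ^ q) = 1 := by
    rw [map_pow, hg₂, one_pow]
  have hr2 : O₂.valuation (algebraMap K L v₂) = 1 := val_eq_one_of_sub_lt O₂ hw h2
  have unitV : ∀ {O : ValuationSubring L}, O.comap (algebraMap K L) = V → ∀ {a : K}, a ∈ V →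
      O.valuation (algebraMap K L a) = 1 → V.valuation a = 1 := by
    intro O hO a ha hva
    refine le_antisymm ((V.valuation_le_one_iff _).2 ha) (not_lt.1 fun hlt => ?_)
    have h3 := (algebraMap_val_lt_one_iff hO a).2 ((ValuationSubring.mem_nonunits_iff V).2 hlt)
    rw [hva] at h3
    exact lt_irrefl _ h3
  have hu1 : V.valuation v₁ = 1 := unitV h₁ hv₁ hr1
  have hu2 : V.valuation v₂ = 1 := unitV h₂ hv₂ hr2
  have hu12 : V.valuation (v₁ * v₂) = 1 := by rw [map_mul, hu1, hu2, one_mul]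
  obtain ⟨n, rfl | rfl⟩ := Int.eq_nat_or_neg k
  · -- `k = n ≥ 0`
    rw [zpow_natCast] at hg₂ h2
    rw [← Nat.cast_mul, zpow_natCast]
    obtain ⟨-, hN⟩ := normFormula_shift K L V q hq hqV hfin O₁ O₂ h₁ h₂ hne y hy hyq hyn π hπ0
      hπV hπ n g ((O₁.valuation_le_one_iff _).1 hg₁.le) ((O₂.valuation_le_one_iff _).1 hg₂.le)
      v₁ v₂ hv₁ hv₂ ((ValuationSubring.mem_nonunits_iff O₁).2 h1)
      ((ValuationSubring.mem_nonunits_iff O₂).2 h2)
    refine ⟨?_, hN⟩
    rw [ValuationSubring.mem_nonunits_iff, ← Valuation.map_sub_swap] at hN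
    exact val_eq_one_of_sub_lt V hu12 hN
  · -- `k = -n`: apply the case `n` to `g⁻¹`
    have hπL : algebraMap K L π ≠ 0 := (_root_.map_ne_zero _).2 hπ0
    have ew : g / algebraMap K L π ^ (-(n : ℤ)) = g * algebraMap K L π ^ n := by
      rw [zpow_neg, zpow_natCast, div_inv_eq_mul]
    rw [ew] at hg₂ h2 hw
    have eg : g⁻¹ / algebraMap K L π ^ n = (g * algebraMap K L π ^ n)⁻¹ := by
      rw [mul_inv, div_eq_mul_inv]
    have hg₁' : O₁.valuation g⁻¹ = 1 := by rw [map_inv₀, hg₁, inv_one]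
    have hg₂' : O₂.valuation (g⁻¹ / algebraMap K L π ^ n) = 1 := by
      rw [eg, map_inv₀, hg₂, inv_one]
    have hv₁' : v₁⁻¹ ∈ V := by
      rw [← V.valuation_le_one_iff, map_inv₀, hu1, inv_one]
    have hv₂' : v₂⁻¹ ∈ V := by
      rw [← V.valuation_le_one_iff, map_inv₀, hu2, inv_one]
    have h1' : g⁻¹ - algebraMap K L v₁⁻¹ ∈ O₁.nonunits := by
      rw [ValuationSubring.mem_nonunits_iff, map_inv₀]
      exact val_inv_sub_inv_lt O₁ hg₁ hr1 h1
    have h2' : (g⁻¹ / algebraMap K L π ^ n) ^ q - algebraMap K L v₂⁻¹ ∈ O₂.nonunits := by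
      rw [ValuationSubring.mem_nonunits_iff, map_inv₀, eg, inv_pow]
      exact val_inv_sub_inv_lt O₂ hw hr2 h2
    obtain ⟨-, hN⟩ := normFormula_shift K L V q hq hqV hfin O₁ O₂ h₁ h₂ hne y hy hyq hyn π hπ0
      hπV hπ n g⁻¹ ((O₁.valuation_le_one_iff _).1 hg₁'.le)
      ((O₂.valuation_le_one_iff _).1 hg₂'.le) v₁⁻¹ v₂⁻¹ hv₁' hv₂' h1' h2'
    have eX : Algebra.norm K g⁻¹ / π ^ (q * n) =
        (Algebra.norm K g / π ^ ((q : ℤ) * -(n : ℤ)))⁻¹ := by
      rw [mul_neg, ← Nat.cast_mul, zpow_neg, zpow_natCast, Algebra.norm_inv, div_inv_eq_mul,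
        mul_inv, div_eq_mul_inv]
    have ec : v₁⁻¹ * v₂⁻¹ = (v₁ * v₂)⁻¹ := by rw [mul_inv]
    rw [eX, ec, ValuationSubring.mem_nonunits_iff] at hN
    have hc' : V.valuation (v₁ * v₂)⁻¹ = 1 := by rw [map_inv₀, hu12, inv_one]
    have hX' : V.valuation (Algebra.norm K g / π ^ ((q : ℤ) * -(n : ℤ)))⁻¹ = 1 := by
      rw [← Valuation.map_sub_swap] at hN
      exact val_eq_one_of_sub_lt V hc' hN
    have hfinal := val_inv_sub_inv_lt V hX' hc' hN
    rw [inv_inv, inv_inv] at hfinal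
    refine ⟨?_, (ValuationSubring.mem_nonunits_iff V).2 hfinal⟩
    rw [map_inv₀] at hX'
    exact inv_eq_one.1 hX'

/-- **(N1-Z), existential form**: the residues exist, and the normalised norm is their
product modulo the maximal ideal of `V`. -/
theorem exists_norm_residues_zshift (K : Type u) (L : Type v) [Field K] [Field L] [Algebra K L]
    [FiniteDimensional K L] (V : ValuationSubring K) (q : ℕ)
    (hq : q.Prime) (hqV : (q : K) ∈ V.nonunits) (hfin : Module.finrank K L = q + 1)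
    (O₁ O₂ : ValuationSubring L) (h₁ : O₁.comap (algebraMap K L) = V)
    (h₂ : O₂.comap (algebraMap K L) = V) (hne : O₁ ≠ O₂) (y : L) (hy : y ∈ O₂)
    (hyq : ∃ v ∈ V, y ^ q - algebraMap K L v ∈ O₂.nonunits)
    (hyn : ∀ v ∈ V, y - algebraMap K L v ∉ O₂.nonunits)
    (π : K) (hπ0 : π ≠ 0) (hπV : π ∈ V.nonunits) (hπ : ∀ a ∈ V.nonunits, a / π ∈ V)
    (k : ℤ) (g : L) (hg₁ : O₁.valuation g = 1)
    (hg₂ : O₂.valuation (g / algebraMap K L π ^ k) = 1) :
    ∃ v₁ ∈ V, ∃ v₂ ∈ V, g - algebraMap K L v₁ ∈ O₁.nonunits ∧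
      (g / algebraMap K L π ^ k) ^ q - algebraMap K L v₂ ∈ O₂.nonunits ∧
      V.valuation (Algebra.norm K g / π ^ ((q : ℤ) * k)) = 1 ∧
      Algebra.norm K g / π ^ ((q : ℤ) * k) - v₁ * v₂ ∈ V.nonunits := by
  obtain ⟨v, hv, hyv⟩ := hyq
  obtain ⟨-, -, -, hres1, hres2⟩ :=
    twoExt_of_uniformizer hq hqV hfin h₁ h₂ hne hy hv hyv hyn hπ0 hπV hπ
  have hw : g / algebraMap K L π ^ k ∈ O₂ := (O₂.valuation_le_one_iff _).1 hg₂.le
  obtain ⟨v₁, hv₁, h1⟩ := hres1 g ((O₁.valuation_le_one_iff _).1 hg₁.le)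
  obtain ⟨c, hc, huc⟩ := hres2 _ hw
  have hv₂ : ∑ i : Fin q, c i ^ q * v ^ (i : ℕ) ∈ V :=
    sum_mem fun i _ => mul_mem (pow_mem (hc i) _) (pow_mem hv _)
  have h2 := Fermat.Agent.S35.H57.pow_sub_mem_nonunits h₂ hq hqV hy hv hyv hw c hc huc
  obtain ⟨hN, hN'⟩ := normFormula_zshift K L V q hq hqV hfin O₁ O₂ h₁ h₂ hne y hy ⟨v, hv, hyv⟩
    hyn π hπ0 hπV hπ k g hg₁ hg₂ v₁ _ hv₁ hv₂ h1 h2
  exact ⟨v₁, hv₁, _, hv₂, h1, h2, hN, hN'⟩

end Statements

end Fermat.Agent.S35.H14
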