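/-
S35-GEO, leaf (GA-ABS) (helper14): the abstract form of helper27's (GA).

Two embeddings `α, β : K → L` of degree `q + 1`; `V` a discrete valuation subring of `K` of
residue characteristic `q`; `V₁ ≠ V₂` valuation subrings of `L` lying over `V` along both
embeddings, `V₂` "inseparable" along `α` and `V₁` "inseparable" along `β` (two-extension
blocks); semilinear automorphisms `s` of `K`, `S` of `L` compatible with `α`, `β`, preserving
`V`, `V₁`, `V₂`; the Kronecker congruences `α(a)^q ≡ β(s a) (mod m(V₁))`,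
`β(b)^q ≡ α(s b) (mod m(V₂))`.  If both norms of `u ∈ Lˣ` are constants times `m`-th powers,
then `S²(u)/u` is congruent to a unit constant times an `m`-th power of a unit coming from `K`,
modulo `m(V₁)` and modulo `m(V₂)`.
-/
import Mathlib
import Fermat.Agent.S35.H14.NormShift

set_option autoImplicit false

namespace Fermat.Agent.S35.H14

open Fermat.Agent.S34.H57

universe u v

section Cong

variable {F : Type*} [Field F]

lemma val_eq_one_iff_mem (O : ValuationSubring F) (x : F) :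
    O.valuation x = 1 ↔ x ∈ O ∧ x ∉ O.nonunits := by
  rw [ValuationSubring.mem_nonunits_iff, ← O.valuation_le_one_iff, not_lt]
  exact ⟨fun h => ⟨h.le, h.ge⟩, fun h => le_antisymm h.1 h.2⟩

lemma ne_zero_of_val_eq_one (O : ValuationSubring F) {x : F} (hx : O.valuation x = 1) :
    x ≠ 0 := fun h0 => by
  rw [h0, map_zero] at hx
  exact zero_ne_one hx

/-- Congruences multiply. -/
lemma val_mul_sub_mul_lt (O : ValuationSubring F) {x x' y y' : F} (hx : O.valuation x ≤ 1)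
    (hy' : O.valuation y' ≤ 1) (h1 : O.valuation (x - x') < 1) (h2 : O.valuation (y - y') < 1) :
    O.valuation (x * y - x' * y') < 1 := by
  have e : x * y - x' * y' = x * (y - y') + y' * (x - x') := by ring
  rw [e]
  exact Valuation.map_add_lt _ (val_mul_lt_one O hx h2) (val_mul_lt_one O hy' h1)

/-- Quotients of congruent units are congruent. -/
lemma val_div_sub_div_lt (O : ValuationSubring F) {x x' y y' : F} (hx : O.valuation x = 1)
    (hy : O.valuation y = 1) (hy' : O.valuation y' = 1)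
    (h1 : O.valuation (x - x') < 1) (h2 : O.valuation (y - y') < 1) :
    O.valuation (x / y - x' / y') < 1 := by
  rw [div_eq_mul_inv, div_eq_mul_inv]
  refine val_mul_sub_mul_lt O hx.le ?_ h1 (val_inv_sub_inv_lt O hy hy' h2)
  rw [map_inv₀, hy', inv_one]

lemma val_sub_lt_trans (O : ValuationSubring F) {x y z : F} (h1 : O.valuation (x - y) < 1)
    (h2 : O.valuation (y - z) < 1) : O.valuation (x - z) < 1 := by
  have e : x - z = (x - y) + (y - z) := by ring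
  rw [e]
  exact Valuation.map_add_lt _ h1 h2

/-- A ring automorphism preserving a valuation subring preserves its non-units. -/
lemma equiv_mem_nonunits_iff (O : ValuationSubring F) (σ : F ≃+* F)
    (hσ : ∀ x, σ x ∈ O ↔ x ∈ O) (x : F) : σ x ∈ O.nonunits ↔ x ∈ O.nonunits := by
  rw [ValuationSubring.mem_nonunits_iff_or, ValuationSubring.mem_nonunits_iff_or, ← map_inv₀,
    hσ, map_eq_zero_iff σ σ.injective]

lemma equiv_val_eq_one_iff (O : ValuationSubring F) (σ : F ≃+* F)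
    (hσ : ∀ x, σ x ∈ O ↔ x ∈ O) (x : F) : O.valuation (σ x) = 1 ↔ O.valuation x = 1 := by
  rw [val_eq_one_iff_mem, val_eq_one_iff_mem, hσ, equiv_mem_nonunits_iff O σ hσ]

lemma equiv_val_sub_lt (O : ValuationSubring F) (σ : F ≃+* F)
    (hσ : ∀ x, σ x ∈ O ↔ x ∈ O) {x y : F} (h : O.valuation (x - y) < 1) :
    O.valuation (σ x - σ y) < 1 := by
  rw [← map_sub, ← ValuationSubring.mem_nonunits_iff, equiv_mem_nonunits_iff O σ hσ,
    ValuationSubring.mem_nonunits_iff]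
  exact h

end Cong

section Hom

variable {K : Type*} {L : Type*} [Field K] [Field L]

lemma hom_mem_iff (φ : K →+* L) {V : ValuationSubring K} {O : ValuationSubring L}
    (h : O.comap φ = V) (a : K) : φ a ∈ O ↔ a ∈ V := by
  rw [← h]
  exact ValuationSubring.mem_comap.symm

lemma hom_mem_nonunits_iff (φ : K →+* L) {V : ValuationSubring K} {O : ValuationSubring L}
    (h : O.comap φ = V) (a : K) : φ a ∈ O.nonunits ↔ a ∈ V.nonunits := by
  rw [ValuationSubring.mem_nonunits_iff_or, ValuationSubring.mem_nonunits_iff_or, ← map_inv₀,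
    hom_mem_iff φ h, map_eq_zero]

lemma hom_val_eq_one_iff (φ : K →+* L) {V : ValuationSubring K} {O : ValuationSubring L}
    (h : O.comap φ = V) (a : K) : O.valuation (φ a) = 1 ↔ V.valuation a = 1 := by
  rw [val_eq_one_iff_mem, val_eq_one_iff_mem, hom_mem_iff φ h, hom_mem_nonunits_iff φ h]

lemma hom_val_sub_lt (φ : K →+* L) {V : ValuationSubring K} {O : ValuationSubring L}
    (h : O.comap φ = V) {a b : K} (hab : V.valuation (a - b) < 1) :
    O.valuation (φ a - φ b) < 1 := by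
  rw [← map_sub, ← ValuationSubring.mem_nonunits_iff, hom_mem_nonunits_iff φ h,
    ValuationSubring.mem_nonunits_iff]
  exact hab

end Hom

section AlongHom

variable {K : Type u} {L : Type v} [Field K] [Field L]

/-- `normFormula_zshift` along a ring homomorphism. -/
theorem normFormula_zshift_hom (φ : K →+* L)
    (hfin : letI := φ.toAlgebra; FiniteDimensional K L) (V : ValuationSubring K) (q : ℕ)
    (hq : q.Prime) (hqV : (q : K) ∈ V.nonunits)
    (hrk : (letI := φ.toAlgebra; Module.finrank K L) = q + 1)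
    (O₁ O₂ : ValuationSubring L) (h₁ : O₁.comap φ = V) (h₂ : O₂.comap φ = V) (hne : O₁ ≠ O₂)
    (y : L) (hy : y ∈ O₂) (hyq : ∃ v ∈ V, y ^ q - φ v ∈ O₂.nonunits)
    (hyn : ∀ v ∈ V, y - φ v ∉ O₂.nonunits)
    (π : K) (hπ0 : π ≠ 0) (hπV : π ∈ V.nonunits) (hπ : ∀ a ∈ V.nonunits, a / π ∈ V)
    (k : ℤ) (g : L) (hg₁ : O₁.valuation g = 1) (hg₂ : O₂.valuation (g / φ π ^ k) = 1)
    (v₁ v₂ : K) (hv₁ : v₁ ∈ V) (hv₂ : v₂ ∈ V) (h1 : g - φ v₁ ∈ O₁.nonunits)
    (h2 : (g / φ π ^ k) ^ q - φ v₂ ∈ O₂.nonunits) :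
    V.valuation ((letI := φ.toAlgebra; Algebra.norm K g) / π ^ ((q : ℤ) * k)) = 1 ∧
      (letI := φ.toAlgebra; Algebra.norm K g) / π ^ ((q : ℤ) * k) - v₁ * v₂ ∈ V.nonunits := by
  let _ := φ.toAlgebra
  have : FiniteDimensional K L := hfin
  exact normFormula_zshift K L V q hq hqV hrk O₁ O₂ h₁ h₂ hne y hy hyq hyn π hπ0 hπV hπ k g
    hg₁ hg₂ v₁ v₂ hv₁ hv₂ h1 h2

/-- `f(O₁ | V) = 1` along a ring homomorphism. -/
theorem exists_res_hom (φ : K →+* L)
    (hfin : letI := φ.toAlgebra; FiniteDimensional K L) (V : ValuationSubring K) (q : ℕ)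
    (hq : q.Prime) (hqV : (q : K) ∈ V.nonunits)
    (hrk : (letI := φ.toAlgebra; Module.finrank K L) = q + 1)
    (O₁ O₂ : ValuationSubring L) (h₁ : O₁.comap φ = V) (h₂ : O₂.comap φ = V) (hne : O₁ ≠ O₂)
    (y : L) (hy : y ∈ O₂) (hyq : ∃ v ∈ V, y ^ q - φ v ∈ O₂.nonunits)
    (hyn : ∀ v ∈ V, y - φ v ∉ O₂.nonunits)
    (π : K) (hπ0 : π ≠ 0) (hπV : π ∈ V.nonunits) (hπ : ∀ a ∈ V.nonunits, a / π ∈ V)
    (g : L) (hg : g ∈ O₁) : ∃ v ∈ V, g - φ v ∈ O₁.nonunits := by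
  let _ := φ.toAlgebra
  have : FiniteDimensional K L := hfin
  obtain ⟨v, hv, hyv⟩ := hyq
  exact (twoExt_of_uniformizer hq hqV hrk h₁ h₂ hne hy hv hyv hyn hπ0 hπV hπ).2.2.2.1 g hg

/-- The norm of `u / φ π ^ j`. -/
lemma norm_div_zpow_hom (φ : K →+* L) (hfin : letI := φ.toAlgebra; FiniteDimensional K L)
    (q : ℕ) (hrk : (letI := φ.toAlgebra; Module.finrank K L) = q + 1) (π : K) (u : L) (j : ℤ) :
    (letI := φ.toAlgebra; Algebra.norm K (u / φ π ^ j)) =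
      (letI := φ.toAlgebra; Algebra.norm K u) / π ^ (((q : ℤ) + 1) * j) := by
  let _ := φ.toAlgebra
  have : FiniteDimensional K L := hfin
  have hP : Algebra.norm K (φ π) = π ^ (q + 1) := by
    rw [← hrk]
    exact Algebra.norm_algebraMap π
  have hz : Algebra.norm K (φ π ^ j) = π ^ (((q : ℤ) + 1) * j) := by
    obtain ⟨n, rfl | rfl⟩ := Int.eq_nat_or_neg j
    · have e : ((q : ℤ) + 1) * (n : ℤ) = (((q + 1) * n : ℕ) : ℤ) := by
        push_cast
        ring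
      rw [zpow_natCast, map_pow, hP, ← pow_mul, e, zpow_natCast]
    · have e : ((q : ℤ) + 1) * (n : ℤ) = (((q + 1) * n : ℕ) : ℤ) := by
        push_cast
        ring
      rw [zpow_neg, zpow_natCast, Algebra.norm_inv, map_pow, hP, ← pow_mul, mul_neg, zpow_neg,
        e, zpow_natCast]
  rw [div_eq_mul_inv, map_mul, Algebra.norm_inv, hz, div_eq_mul_inv]

/-- If the norm of `u ≠ 0` is a constant times an `m`-th power, then every normalised norm
`N(u / π^j) / π^e` is a constant times the `m`-th power of one unit `H` of `V`. -/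
lemma exists_norm_shape (φ : K →+* L) (hfin : letI := φ.toAlgebra; FiniteDimensional K L)
    (q : ℕ) (hrk : (letI := φ.toAlgebra; Module.finrank K L) = q + 1)
    (V : ValuationSubring K) (π : K)
    (hdV : ∀ a : K, a ≠ 0 → ∃ i : ℤ, V.valuation (a / π ^ i) = 1)
    (K₀ : Subfield K) (hπK₀ : π ∈ K₀) (m : ℕ) (u : L) (hu : u ≠ 0) (c h : K) (hc : c ∈ K₀)
    (hN : (letI := φ.toAlgebra; Algebra.norm K u) = c * h ^ m) :
    ∃ H : K, V.valuation H = 1 ∧ ∀ j e : ℤ, ∃ c₀ ∈ K₀,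
      (letI := φ.toAlgebra; Algebra.norm K (u / φ π ^ j)) / π ^ e = c₀ * H ^ m := by
  have hN0 : c * h ^ m ≠ 0 := by
    let _ := φ.toAlgebra
    have : FiniteDimensional K L := hfin
    rw [← hN]
    exact Algebra.norm_ne_zero_iff.2 hu
  -- `h ^ m = (π ^ l) ^ m * H ^ m` with `H` a unit
  obtain ⟨l, H, hH, hhH⟩ : ∃ (l : ℤ) (H : K), V.valuation H = 1 ∧
      h ^ m = (π ^ l) ^ m * H ^ m := by
    by_cases hh : h = 0
    · have hm : m = 0 := by
        by_contra hm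
        rw [hh, zero_pow hm, mul_zero] at hN0
        exact hN0 rfl
      exact ⟨0, 1, map_one _, by rw [hm]; simp⟩
    · obtain ⟨l, hl⟩ := hdV h hh
      have hπl : π ^ l ≠ 0 := by
        intro h0
        rw [h0, div_zero, map_zero] at hl
        exact zero_ne_one hl
      refine ⟨l, h / π ^ l, hl, ?_⟩
      rw [← mul_pow, mul_div_cancel₀ _ hπl]
  refine ⟨H, hH, fun j e => ⟨c * (π ^ l) ^ m / π ^ (((q : ℤ) + 1) * j) / π ^ e, ?_, ?_⟩⟩
  · exact div_mem (div_mem (mul_mem hc (pow_mem (zpow_mem hπK₀ _) _)) (zpow_mem hπK₀ _))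
      (zpow_mem hπK₀ _)
  · rw [norm_div_zpow_hom φ hfin q hrk π u j, hN, hhH]
    ring

end AlongHom

section Main

variable {K : Type u} {L : Type v} [Field K] [Field L]

/-- The image of a uniformiser under an automorphism preserving `V` is a unit multiple of it. -/
lemma val_equiv_unif_div (V : ValuationSubring K) (π : K) (hπ0 : π ≠ 0) (hπV : π ∈ V.nonunits)
    (hπ : ∀ a ∈ V.nonunits, a / π ∈ V) (s : K ≃+* K) (hsV : ∀ a, s a ∈ V ↔ a ∈ V) :
    V.valuation (s π / π) = 1 := by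
  have hsnu : ∀ a, s a ∈ V.nonunits ↔ a ∈ V.nonunits := equiv_mem_nonunits_iff V s hsV
  have hsπ0 : s π ≠ 0 := (map_ne_zero_iff s s.injective).2 hπ0
  have h1 : s π / π ∈ V := hπ _ ((hsnu π).2 hπV)
  have h2 : π / s π ∈ V := by
    have h3 : s.symm π ∈ V.nonunits := (hsnu _).1 (by rw [s.apply_symm_apply]; exact hπV)
    have h5 := (hsV _).2 (hπ _ h3)
    rwa [map_div₀, s.apply_symm_apply] at h5
  refine le_antisymm ((V.valuation_le_one_iff _).2 h1) ?_
  have h6 := (V.valuation_le_one_iff _).2 h2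
  have e : s π / π = (π / s π)⁻¹ := (inv_div _ _).symm
  have hpos : 0 < V.valuation (π / s π) :=
    zero_lt_iff.2 ((Valuation.ne_zero_iff _).2 (div_ne_zero hπ0 hsπ0))
  rw [e, map_inv₀]
  exact (one_le_inv₀ hpos).2 h6

/-- **(GA-ABS)**. -/
theorem ga_abs (α β : K →+* L)
    (hfinα : letI := α.toAlgebra; FiniteDimensional K L)
    (hfinβ : letI := β.toAlgebra; FiniteDimensional K L)
    (V : ValuationSubring K) (q : ℕ) (hq : q.Prime) (hqV : (q : K) ∈ V.nonunits)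
    (hrkα : (letI := α.toAlgebra; Module.finrank K L) = q + 1)
    (hrkβ : (letI := β.toAlgebra; Module.finrank K L) = q + 1)
    (V₁ V₂ : ValuationSubring L) (hne : V₁ ≠ V₂)
    (hα₁ : V₁.comap α = V) (hα₂ : V₂.comap α = V) (hβ₁ : V₁.comap β = V) (hβ₂ : V₂.comap β = V)
    -- two-extension witnesses: along `α` the inseparable ring is `V₂`, along `β` it is `V₁`
    (yα : L) (hyα : yα ∈ V₂) (hyαq : ∃ v ∈ V, yα ^ q - α v ∈ V₂.nonunits)
    (hyαn : ∀ v ∈ V, yα - α v ∉ V₂.nonunits)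
    (yβ : L) (hyβ : yβ ∈ V₁) (hyβq : ∃ v ∈ V, yβ ^ q - β v ∈ V₁.nonunits)
    (hyβn : ∀ v ∈ V, yβ - β v ∉ V₁.nonunits)
    -- a uniformiser of `V`, and discreteness of `V`, `V₁`, `V₂`
    (π : K) (hπ0 : π ≠ 0) (hπV : π ∈ V.nonunits) (hπ : ∀ a ∈ V.nonunits, a / π ∈ V)
    (hdV : ∀ a : K, a ≠ 0 → ∃ i : ℤ, V.valuation (a / π ^ i) = 1)
    (hd₁ : ∀ x : L, x ≠ 0 → ∃ i : ℤ, V₁.valuation (x / α π ^ i) = 1)
    (hd₂ : ∀ x : L, x ≠ 0 → ∃ i : ℤ, V₂.valuation (x / α π ^ i) = 1)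
    -- the constants
    (K₀ : Subfield K) (hπK₀ : π ∈ K₀) (hαβ : ∀ a ∈ K₀, α a = β a)
    -- the semilinear automorphisms
    (s : K ≃+* K) (S : L ≃+* L) (hSα : ∀ a, S (α a) = α (s a)) (hSβ : ∀ a, S (β a) = β (s a))
    (hsK₀ : ∀ a ∈ K₀, s a ∈ K₀)
    (hsV : ∀ a, s a ∈ V ↔ a ∈ V) (hS₁ : ∀ x, S x ∈ V₁ ↔ x ∈ V₁) (hS₂ : ∀ x, S x ∈ V₂ ↔ x ∈ V₂)
    -- the Kronecker congruences
    (hK₁ : ∀ a ∈ V, α a ^ q - β (s a) ∈ V₁.nonunits)
    (hK₂ : ∀ b ∈ V, β b ^ q - α (s b) ∈ V₂.nonunits)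
    -- the function: both norms are constants times `m`-th powers
    (m : ℕ) (u : L) (hu : u ≠ 0) (c c' h h' : K) (hc : c ∈ K₀) (hc' : c' ∈ K₀)
    (hNα : (letI := α.toAlgebra; Algebra.norm K u) = c * h ^ m)
    (hNβ : (letI := β.toAlgebra; Algebra.norm K u) = c' * h' ^ m) :
    ∃ c₁ ∈ K₀, ∃ c₂ ∈ K₀, ∃ H₁ H₂ : K, V.valuation c₁ = 1 ∧ V.valuation c₂ = 1 ∧
      V.valuation H₁ = 1 ∧ V.valuation H₂ = 1 ∧
      S (S u) / u - α c₁ * α H₁ ^ m ∈ V₁.nonunits ∧
      S (S u) / u - α c₂ * β H₂ ^ m ∈ V₂.nonunits := by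
  have hPβ : β π = α π := (hαβ π hπK₀).symm
  have hP0 : α π ≠ 0 := (_root_.map_ne_zero α).2 hπ0
  have hs1 : ∀ a, V.valuation (s a) = 1 ↔ V.valuation a = 1 := equiv_val_eq_one_iff V s hsV
  have hSS₁ : ∀ x, V₁.valuation (S (S x)) = 1 ↔ V₁.valuation x = 1 := fun x => by
    rw [equiv_val_eq_one_iff V₁ S hS₁, equiv_val_eq_one_iff V₁ S hS₁]
  have hSS₂ : ∀ x, V₂.valuation (S (S x)) = 1 ↔ V₂.valuation x = 1 := fun x => by
    rw [equiv_val_eq_one_iff V₂ S hS₂, equiv_val_eq_one_iff V₂ S hS₂]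
  -- Step A: normalisation
  obtain ⟨i, hi⟩ := hd₁ u hu
  have hu₀0 : u / α π ^ i ≠ 0 := ne_zero_of_val_eq_one V₁ hi
  obtain ⟨k, hk⟩ := hd₂ (u / α π ^ i) hu₀0
  set u₀ : L := u / α π ^ i with hu₀
  set g : L := u₀ / α π ^ k with hg
  have hg0 : g ≠ 0 := ne_zero_of_val_eq_one V₂ hk
  have hgu : g = u / α π ^ (i + k) := by
    rw [hg, hu₀, div_div, ← zpow_add₀ hP0]
  have hu₀g : g / α π ^ (-k) = u₀ := by
    rw [hg, zpow_neg, div_inv_eq_mul, div_mul_cancel₀ _ (zpow_ne_zero k hP0)]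
  -- Step B: residues
  obtain ⟨a, ha, hua⟩ := exists_res_hom α hfinα V q hq hqV hrkα V₁ V₂ hα₁ hα₂ hne yα hyα hyαq
    hyαn π hπ0 hπV hπ u₀ ((V₁.valuation_le_one_iff _).1 hi.le)
  obtain ⟨b, hb, hgb⟩ := exists_res_hom β hfinβ V q hq hqV hrkβ V₂ V₁ hβ₂ hβ₁ hne.symm yβ hyβ
    hyβq hyβn π hπ0 hπV hπ g ((V₂.valuation_le_one_iff _).1 hk.le)
  have hua' : V₁.valuation (u₀ - α a) < 1 := (ValuationSubring.mem_nonunits_iff V₁).1 hua
  have hgb' : V₂.valuation (g - β b) < 1 := (ValuationSubring.mem_nonunits_iff V₂).1 hgb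
  have hαa1 : V₁.valuation (α a) = 1 := val_eq_one_of_sub_lt V₁ hi hua'
  have hβb1 : V₂.valuation (β b) = 1 := val_eq_one_of_sub_lt V₂ hk hgb'
  have ha1 : V.valuation a = 1 := (hom_val_eq_one_iff α hα₁ a).1 hαa1
  have hb1 : V.valuation b = 1 := (hom_val_eq_one_iff β hβ₂ b).1 hβb1
  have hsa1 : V.valuation (s a) = 1 := (hs1 a).2 ha1
  have hsb1 : V.valuation (s b) = 1 := (hs1 b).2 hb1
  have hssa1 : V.valuation (s (s a)) = 1 := (hs1 _).2 hsa1
  have hssb1 : V.valuation (s (s b)) = 1 := (hs1 _).2 hsb1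
  -- Step C: Kronecker
  have hv2α : g ^ q - α (s b) ∈ V₂.nonunits := by
    rw [ValuationSubring.mem_nonunits_iff]
    exact val_sub_lt_trans V₂ (val_pow_sub_pow_lt_one V₂ ((V₂.valuation_le_one_iff _).1 hk.le)
      ((V₂.valuation_le_one_iff _).1 hβb1.le) hgb' q)
      ((ValuationSubring.mem_nonunits_iff V₂).1 (hK₂ b hb))
  have hv2β : u₀ ^ q - β (s a) ∈ V₁.nonunits := by
    rw [ValuationSubring.mem_nonunits_iff]
    exact val_sub_lt_trans V₁ (val_pow_sub_pow_lt_one V₁ ((V₁.valuation_le_one_iff _).1 hi.le)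
      ((V₁.valuation_le_one_iff _).1 hαa1.le) hua' q)
      ((ValuationSubring.mem_nonunits_iff V₁).1 (hK₁ a ha))
  -- Step D: the two norm formulas
  obtain ⟨hNα1, hNα2⟩ := normFormula_zshift_hom α hfinα V q hq hqV hrkα V₁ V₂ hα₁ hα₂ hne yα
    hyα hyαq hyαn π hπ0 hπV hπ k u₀ hi hk a (s b) ha ((hsV b).2 hb) hua hv2α
  have hgβ1 : V₁.valuation (g / β π ^ (-k)) = 1 := by
    rw [hPβ, hu₀g]
    exact hi
  have hv2β' : (g / β π ^ (-k)) ^ q - β (s a) ∈ V₁.nonunits := by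
    rw [hPβ, hu₀g]
    exact hv2β
  obtain ⟨hNβ1, hNβ2⟩ := normFormula_zshift_hom β hfinβ V q hq hqV hrkβ V₂ V₁ hβ₂ hβ₁ hne.symm
    yβ hyβ hyβq hyβn π hπ0 hπV hπ (-k) g hk hgβ1 b (s a) hb ((hsV a).2 ha) hgb hv2β'
  -- Step E: the shape of the norms
  obtain ⟨H, hH, hshape⟩ := exists_norm_shape α hfinα q hrkα V π hdV K₀ hπK₀ m u hu c h hc hNα
  obtain ⟨H', hH', hshape'⟩ :=
    exists_norm_shape β hfinβ q hrkβ V π hdV K₀ hπK₀ m u hu c' h' hc' hNβ
  obtain ⟨c₀, hc₀, hc₀e⟩ := hshape i ((q : ℤ) * k)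
  obtain ⟨c₀', hc₀', hc₀'e⟩ := hshape' (i + k) ((q : ℤ) * (-k))
  rw [hPβ, ← hgu] at hc₀'e
  rw [hc₀e] at hNα1 hNα2
  rw [hc₀'e] at hNβ1 hNβ2
  have hc₀1 : V.valuation c₀ = 1 := by
    rw [map_mul, map_pow, hH, one_pow, mul_one] at hNα1
    exact hNα1
  have hc₀'1 : V.valuation c₀' = 1 := by
    rw [map_mul, map_pow, hH', one_pow, mul_one] at hNβ1
    exact hNβ1
  have hI : V.valuation (c₀ * H ^ m - a * s b) < 1 := (ValuationSubring.mem_nonunits_iff V).1 hNα2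
  have hII : V.valuation (c₀' * H' ^ m - b * s a) < 1 :=
    (ValuationSubring.mem_nonunits_iff V).1 hNβ2
  -- Step F: apply `s` and divide
  have hsI : V.valuation (s c₀ * s H ^ m - s a * s (s b)) < 1 := by
    have h3 := equiv_val_sub_lt V s hsV hI
    rwa [map_mul, map_pow, map_mul] at h3
  have hsII : V.valuation (s c₀' * s H' ^ m - s b * s (s a)) < 1 := by
    have h3 := equiv_val_sub_lt V s hsV hII
    rwa [map_mul, map_pow, map_mul] at h3
  have ha0 : a ≠ 0 := ne_zero_of_val_eq_one V ha1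
  have hb0 : b ≠ 0 := ne_zero_of_val_eq_one V hb1
  have hsa0 : s a ≠ 0 := ne_zero_of_val_eq_one V hsa1
  have hsb0 : s b ≠ 0 := ne_zero_of_val_eq_one V hsb1
  have hX : V.valuation (s (s a) / a - s c₀' / c₀ * (s H' / H) ^ m) < 1 := by
    have e1 : s (s a) / a = (s b * s (s a)) / (a * s b) := by
      field_simp
    have e2 : s c₀' / c₀ * (s H' / H) ^ m = (s c₀' * s H' ^ m) / (c₀ * H ^ m) := by
      rw [div_pow, div_mul_div_comm]
    rw [e1, e2]
    refine val_div_sub_div_lt V ?_ ?_ ?_ ?_ ?_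
    · rw [map_mul, hsb1, hssa1, one_mul]
    · rw [map_mul, ha1, hsb1, one_mul]
    · rw [map_mul, map_pow, hc₀1, hH, one_pow, one_mul]
    · rw [Valuation.map_sub_swap]
      exact hsII
    · rw [Valuation.map_sub_swap]
      exact hI
  have hY : V.valuation (s (s b) / b - s c₀ / c₀' * (s H / H') ^ m) < 1 := by
    have e1 : s (s b) / b = (s a * s (s b)) / (b * s a) := by
      field_simp
    have e2 : s c₀ / c₀' * (s H / H') ^ m = (s c₀ * s H ^ m) / (c₀' * H' ^ m) := by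
      rw [div_pow, div_mul_div_comm]
    rw [e1, e2]
    refine val_div_sub_div_lt V ?_ ?_ ?_ ?_ ?_
    · rw [map_mul, hsa1, hssb1, one_mul]
    · rw [map_mul, hb1, hsa1, one_mul]
    · rw [map_mul, map_pow, hc₀'1, hH', one_pow, one_mul]
    · rw [Valuation.map_sub_swap]
      exact hsI
    · rw [Valuation.map_sub_swap]
      exact hII
  -- Step G: the unit constant `ε = s²(π) / π`
  have hr : V.valuation (s π / π) = 1 := val_equiv_unif_div V π hπ0 hπV hπ s hsV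
  have hsπ0 : s π ≠ 0 := (map_ne_zero_iff s s.injective).2 hπ0
  set ε : K := s (s π) / π with hε
  have hεK₀ : ε ∈ K₀ := div_mem (hsK₀ _ (hsK₀ _ hπK₀)) hπK₀
  have hε1 : V.valuation ε = 1 := by
    have e : ε = s (s π / π) * (s π / π) := by
      rw [hε, map_div₀]
      field_simp
    rw [e, map_mul, (hs1 _).2 hr, hr, one_mul]
  have hSSP : S (S (α π)) / α π = α ε := by
    rw [hSα, hSα, hε, map_div₀]
  have hεz1 : ∀ j : ℤ, V.valuation (ε ^ j) = 1 := fun j => by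
    rw [map_zpow₀, hε1, one_zpow]
  -- `S²(x · P^j) / (x · P^j) = (S²(x) / x) · α(ε^j)`
  have hSSdiv : ∀ (x : L) (j : ℤ), x ≠ 0 →
      S (S (x * α π ^ j)) / (x * α π ^ j) = S (S x) / x * α (ε ^ j) := by
    intro x j hx
    rw [map_mul, map_mul, map_zpow₀, map_zpow₀, map_zpow₀, ← hSSP, div_zpow,
      mul_div_mul_comm]
  -- Step H: the congruence at `V₁`
  have hw₁ : V₁.valuation (S (S u₀) / u₀ - α (s c₀' / c₀) * α (s H' / H) ^ m) < 1 := by
    have h3 : V₁.valuation (S (S u₀) - α (s (s a))) < 1 := by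
      have h4 := equiv_val_sub_lt V₁ S hS₁ (equiv_val_sub_lt V₁ S hS₁ hua')
      rwa [hSα, hSα] at h4
    have h5 : V₁.valuation (S (S u₀) / u₀ - α (s (s a)) / α a) < 1 :=
      val_div_sub_div_lt V₁ ((hSS₁ _).2 hi) hi hαa1 h3 hua'
    have h6 := hom_val_sub_lt α hα₁ hX
    rw [map_div₀, map_mul, map_pow] at h6
    exact val_sub_lt_trans V₁ h5 h6
  -- Step I: the congruence at `V₂`
  have hw₂ : V₂.valuation (S (S g) / g - α (s c₀ / c₀') * β (s H / H') ^ m) < 1 := by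
    have h3 : V₂.valuation (S (S g) - β (s (s b))) < 1 := by
      have h4 := equiv_val_sub_lt V₂ S hS₂ (equiv_val_sub_lt V₂ S hS₂ hgb')
      rwa [hSβ, hSβ] at h4
    have h5 : V₂.valuation (S (S g) / g - β (s (s b)) / β b) < 1 :=
      val_div_sub_div_lt V₂ ((hSS₂ _).2 hk) hk hβb1 h3 hgb'
    have h6 := hom_val_sub_lt β hβ₂ hY
    rw [map_div₀, map_mul, map_pow] at h6
    have hcK : s c₀ / c₀' ∈ K₀ := div_mem (hsK₀ _ hc₀) hc₀'
    rw [← hαβ _ hcK] at h6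
    exact val_sub_lt_trans V₂ h5 h6
  -- Step J: back to `u`
  have hu_eq₁ : u = u₀ * α π ^ i := by
    rw [hu₀, div_mul_cancel₀ _ (zpow_ne_zero i hP0)]
  have hu_eq₂ : u = g * α π ^ (i + k) := by
    rw [hgu, div_mul_cancel₀ _ (zpow_ne_zero (i + k) hP0)]
  refine ⟨s c₀' / c₀ * ε ^ i, mul_mem (div_mem (hsK₀ _ hc₀') hc₀) (zpow_mem hεK₀ _),
    s c₀ / c₀' * ε ^ (i + k), mul_mem (div_mem (hsK₀ _ hc₀) hc₀') (zpow_mem hεK₀ _),
    s H' / H, s H / H', ?_, ?_, ?_, ?_, ?_, ?_⟩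
  · rw [map_mul, map_div₀, (hs1 _).2 hc₀'1, hc₀1, hεz1, div_one, one_mul]
  · rw [map_mul, map_div₀, (hs1 _).2 hc₀1, hc₀'1, hεz1, div_one, one_mul]
  · rw [map_div₀, (hs1 _).2 hH', hH, div_one]
  · rw [map_div₀, (hs1 _).2 hH, hH', div_one]
  · have e : S (S u) / u - α (s c₀' / c₀ * ε ^ i) * α (s H' / H) ^ m =
        (S (S u₀) / u₀ - α (s c₀' / c₀) * α (s H' / H) ^ m) * α (ε ^ i) := by
      conv_lhs => rw [hu_eq₁, hSSdiv u₀ i hu₀0, map_mul]
      ring
    rw [ValuationSubring.mem_nonunits_iff, e, mul_comm]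
    exact val_mul_lt_one V₁ ((hom_val_eq_one_iff α hα₁ _).2 (hεz1 i)).le hw₁
  · have e : S (S u) / u - α (s c₀ / c₀' * ε ^ (i + k)) * β (s H / H') ^ m =
        (S (S g) / g - α (s c₀ / c₀') * β (s H / H') ^ m) * α (ε ^ (i + k)) := by
      conv_lhs => rw [hu_eq₂, hSSdiv g (i + k) hg0, map_mul]
      ring
    rw [ValuationSubring.mem_nonunits_iff, e, mul_comm]
    exact val_mul_lt_one V₂ ((hom_val_eq_one_iff α hα₂ _).2 (hεz1 (i + k))).le hw₂

end Main

end Fermat.Agent.S35.H14
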