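/-
S35-GEO (helper14): descent and transport of norms along ring homomorphisms (Mathlib only).

* `norm_desc` : for a commutative square of fields `E → F`, `FM → FN` (vertical maps `iE`, `iF`)
  with equal finite degrees and such that `E`-linearly independent families of `F` stay
  linearly independent over `FM` (linear disjointness), `N_{FN/FM}(iF x) = iE (N_{F/E} x)`.
* `finite_of_equiv`, `finrank_of_equiv`, `norm_of_equiv` : if `W` is a ring automorphism of `L`
  with `W ∘ α = β`, then `L` has the same degree along `β` as along `α`, and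
  `N_β (W x) = N_α x`.
* `norm_desc_of_equiv` : the descent of the norm along the mirror embeddings `W₀ ∘ φ₀`, `W ∘ φ`.

All norms are written `(letI := φ.toAlgebra; Algebra.norm K x)`, which is definitionally
`normAlong` for `φ = (an algebra homomorphism).toRingHom`.
-/
import Mathlib

set_option autoImplicit false

namespace Fermat.Agent.S35.H14

section Desc

variable {E F FM FN : Type*} [Field E] [Field F] [Field FM] [Field FN]

/-- **(NORM-DESC)** descent of the norm along a linearly disjoint square. -/
theorem norm_desc (φ₀ : E →+* F) (φ : FM →+* FN) (iE : E →+* FM) (iF : F →+* FN)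
    (hcomm : ∀ e : E, iF (φ₀ e) = φ (iE e))
    (hfin₀ : letI := φ₀.toAlgebra; FiniteDimensional E F)
    (hrk : (letI := φ₀.toAlgebra; Module.finrank E F) =
      (letI := φ.toAlgebra; Module.finrank FM FN))
    (hLD : ∀ (n : ℕ) (f : Fin n → F), (letI := φ₀.toAlgebra; LinearIndependent E f) →
      (letI := φ.toAlgebra; LinearIndependent FM (fun i => iF (f i))))
    (x : F) :
    (letI := φ.toAlgebra; Algebra.norm FM (iF x)) =
      iE (letI := φ₀.toAlgebra; Algebra.norm E x) := by
  classical
  let a₀ : Algebra E F := φ₀.toAlgebra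
  let a : Algebra FM FN := φ.toAlgebra
  have : FiniteDimensional E F := hfin₀
  have : Nonempty (Fin (Module.finrank E F)) := Fin.pos_iff_nonempty.1 Module.finrank_pos
  let b₀ := Module.finBasis E F
  have hli : LinearIndependent FM (fun i => iF (b₀ i)) := hLD _ _ b₀.linearIndependent
  have hcard : Fintype.card (Fin (Module.finrank E F)) = Module.finrank FM FN := by
    rw [Fintype.card_fin]
    exact hrk
  let b := basisOfLinearIndependentOfCardEqFinrank hli hcard
  have hb : ∀ i, b i = iF (b₀ i) := fun i => by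
    rw [coe_basisOfLinearIndependentOfCardEqFinrank hli hcard]
  have hmat : Algebra.leftMulMatrix b (iF x) = iE.mapMatrix (Algebra.leftMulMatrix b₀ x) := by
    ext i j
    have h1 : x * b₀ j = ∑ l, Algebra.leftMulMatrix b₀ x l j • b₀ l := by
      conv_lhs => rw [← b₀.sum_repr (x * b₀ j)]
      refine Finset.sum_congr rfl fun l _ => ?_
      rw [Algebra.leftMulMatrix_eq_repr_mul]
    have h2 : iF x * b j = ∑ l, iE (Algebra.leftMulMatrix b₀ x l j) • b l := by
      rw [hb, ← map_mul, h1, map_sum]
      refine Finset.sum_congr rfl fun l _ => ?_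
      rw [Algebra.smul_def, Algebra.smul_def, map_mul, hb]
      congr 1
      exact hcomm _
    rw [Algebra.leftMulMatrix_eq_repr_mul, h2, Module.Basis.repr_sum_self]
    rfl
  rw [Algebra.norm_eq_matrix_det b, hmat, Algebra.norm_eq_matrix_det b₀, RingHom.map_det]

end Desc

section Equiv

variable {K L : Type*} [Field K] [Field L]

/-- The algebra equivalence between the `α`-structure and the `β`-structure on `L` given by an
automorphism `W` with `W ∘ α = β`. -/
noncomputable def algEquivOfComm (α β : K →+* L) (W : L ≃+* L) (hW : ∀ a, W (α a) = β a) :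
    @AlgEquiv K L L _ _ _ α.toAlgebra β.toAlgebra :=
  @AlgEquiv.ofRingEquiv K L L _ _ _ α.toAlgebra β.toAlgebra W hW

/-- **Transport of finiteness** along an automorphism `W` with `W ∘ α = β`. -/
theorem finite_of_equiv (α β : K →+* L) (W : L ≃+* L) (hW : ∀ a, W (α a) = β a)
    (hfin : letI := α.toAlgebra; FiniteDimensional K L) :
    letI := β.toAlgebra; FiniteDimensional K L :=
  @Module.Finite.equiv K L L _ _ α.toAlgebra.toModule _ β.toAlgebra.toModule hfin
    (@AlgEquiv.toLinearEquiv K L L _ _ _ α.toAlgebra β.toAlgebra (algEquivOfComm α β W hW))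

/-- **Transport of the degree** along an automorphism `W` with `W ∘ α = β`. -/
theorem finrank_of_equiv (α β : K →+* L) (W : L ≃+* L) (hW : ∀ a, W (α a) = β a) :
    (letI := β.toAlgebra; Module.finrank K L) = (letI := α.toAlgebra; Module.finrank K L) :=
  (@LinearEquiv.finrank_eq K L L _ _ α.toAlgebra.toModule _ β.toAlgebra.toModule
    (@AlgEquiv.toLinearEquiv K L L _ _ _ α.toAlgebra β.toAlgebra
      (algEquivOfComm α β W hW))).symm

/-- **Transport of the norm** along an automorphism `W` with `W ∘ α = β`:
`N_β (W x) = N_α x`. -/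
theorem norm_of_equiv (α β : K →+* L) (W : L ≃+* L) (hW : ∀ a, W (α a) = β a) (x : L) :
    (letI := β.toAlgebra; Algebra.norm K (W x)) = (letI := α.toAlgebra; Algebra.norm K x) :=
  @Algebra.norm_eq_of_algEquiv K L L _ _ α.toAlgebra _ β.toAlgebra
    (algEquivOfComm α β W hW) x

end Equiv

section DescEquiv

variable {E F FM FN : Type*} [Field E] [Field F] [Field FM] [Field FN]

/-- **(NORM-DESC) for the mirror embedding**: if the square of `φ₀`, `φ` is linearly disjoint and
`ψ₀ = W₀ ∘ φ₀`, `ψ = W ∘ φ` for compatible automorphisms `W₀`, `W`, then the norm along `ψ`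
descends to the norm along `ψ₀`. -/
theorem norm_desc_of_equiv (φ₀ ψ₀ : E →+* F) (φ ψ : FM →+* FN) (iE : E →+* FM) (iF : F →+* FN)
    (hcomm : ∀ e : E, iF (φ₀ e) = φ (iE e))
    (hfin₀ : letI := φ₀.toAlgebra; FiniteDimensional E F)
    (hrk : (letI := φ₀.toAlgebra; Module.finrank E F) =
      (letI := φ.toAlgebra; Module.finrank FM FN))
    (hLD : ∀ (n : ℕ) (f : Fin n → F), (letI := φ₀.toAlgebra; LinearIndependent E f) →
      (letI := φ.toAlgebra; LinearIndependent FM (fun i => iF (f i))))
    (W₀ : F ≃+* F) (W : FN ≃+* FN) (hW₀ : ∀ e, W₀ (φ₀ e) = ψ₀ e) (hW : ∀ a, W (φ a) = ψ a)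
    (hWi : ∀ x, iF (W₀ x) = W (iF x)) (x : F) :
    (letI := ψ.toAlgebra; Algebra.norm FM (iF x)) =
      iE (letI := ψ₀.toAlgebra; Algebra.norm E x) := by
  obtain ⟨y, rfl⟩ := W₀.surjective x
  rw [hWi, norm_of_equiv φ ψ W hW (iF y), norm_of_equiv φ₀ ψ₀ W₀ hW₀ y]
  exact norm_desc φ₀ φ iE iF hcomm hfin₀ hrk hLD y

end DescEquiv

end Fermat.Agent.S35.H14
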