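/-
S35-GEO (helper14): the descent of the two norms to the `K₀`-forms of the modular function
fields (concrete corollaries of `Fermat.Agent.S35.H14.NormDesc` on the landed objects of
`Fermat.Agent.S34.H64.Desc`: `alphaForm`, `betaForm`, `wForm`).

* `norm_alphaForm` : for `x` in the `K₀`-form of level `M q`, the norm of `x` along `α` in
  `F_{Mq} / F_M` is the norm of `x` along `alphaForm` in the `K₀`-forms.
* `finite_betaForm`, `finrank_betaForm` : the `K₀`-form of level `M q` has degree `q + 1` along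
  `betaForm` (transport along the Atkin–Lehner involution `wForm`).
* `norm_betaForm` : the same descent along `β`.
-/
import Mathlib
import Fermat.Agent.S34.H64.Desc
import Fermat.Agent.S35.H14.NormDesc

set_option autoImplicit false

noncomputable section

namespace Fermat.Agent.S35.H14

open ModularCurve AlgebraicCurve

open Fermat.Agent.S18 Fermat.Agent.S18.H74 Fermat.Agent.S34.H19 Fermat.Agent.S34.H61
  Fermat.Agent.S34.H64

section Alpha

variable (M q : ℕ) [NeZero M] [NeZero q] (K₀ : IntermediateField ℚ Kb)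

/-- **Descent of the norm along `α`** to the `K₀`-forms. -/
theorem norm_alphaForm (hq : q.Prime) (hqM : ¬ q ∣ M) (x : ↥(ratForm (M * q) K₀)) :
    (letI := algebraAlong (heckeAlphaBar Kb M q); Algebra.norm (FN M) (x : FN (M * q))) =
      (((letI := (alphaForm M q K₀).toAlgebra; Algebra.norm ↥(ratForm M K₀) x) :
        ↥(ratForm M K₀)) : FN M) := by
  obtain ⟨hfin, hdeg⟩ := finrank_ratForm M q K₀ hq hqM
  have hdeg' : finrankAlong Kb (heckeAlphaBar Kb M q) = q + 1 :=
    Fermat.Agent.S37.H87.finrankAlong_alpha_prime M q hq hqM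
  exact norm_desc (alphaForm M q K₀) (heckeAlphaBar Kb M q).toRingHom
    (algebraMap ↥(ratForm M K₀) (FN M)) (algebraMap ↥(ratForm (M * q) K₀) (FN (M * q)))
    (fun e => rfl) hfin (hdeg.trans hdeg'.symm)
    (fun n f hf => linearIndependent_ratForm M q K₀ f hf) x

end Alpha

section Beta

variable {M q : ℕ} [NeZero M] [hqF : Fact q.Prime] {hqM : ¬ q ∣ M} {A : ValuationSubring Kb}
  {hA : A.LiesOverPrime q} {O₁ : ValuationSubring (FN (M * q))}
  {w : FN (M * q) ≃+* FN (M * q)}

/-- The `K₀`-form of level `M q` is finite along `betaForm`. -/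
theorem finite_betaForm (hTG : TwoGauss M q hqM A hA O₁ w) (K₀ : IntermediateField ℚ Kb) :
    @Module.Finite ↥(ratForm M K₀) ↥(ratForm (M * q) K₀) _ _
      (betaForm M q K₀).toAlgebra.toModule :=
  finite_of_equiv (alphaForm M q K₀) (betaForm M q K₀) (wForm hTG K₀) (wForm_alphaForm hTG K₀)
    (finrank_ratForm M q K₀ hqF.out hqM).1

/-- The `K₀`-form of level `M q` has degree `q + 1` along `betaForm`. -/
theorem finrank_betaForm (hTG : TwoGauss M q hqM A hA O₁ w) (K₀ : IntermediateField ℚ Kb) :
    @Module.finrank ↥(ratForm M K₀) ↥(ratForm (M * q) K₀) _ _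
      (betaForm M q K₀).toAlgebra.toModule = q + 1 :=
  (finrank_of_equiv (alphaForm M q K₀) (betaForm M q K₀) (wForm hTG K₀)
    (wForm_alphaForm hTG K₀)).trans (finrank_ratForm M q K₀ hqF.out hqM).2

/-- **Descent of the norm along `β`** to the `K₀`-forms. -/
theorem norm_betaForm (hTG : TwoGauss M q hqM A hA O₁ w) (K₀ : IntermediateField ℚ Kb)
    (x : ↥(ratForm (M * q) K₀)) :
    (letI := algebraAlong (heckeBetaBar Kb M q); Algebra.norm (FN M) (x : FN (M * q))) =
      (((letI := (betaForm M q K₀).toAlgebra; Algebra.norm ↥(ratForm M K₀) x) :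
        ↥(ratForm M K₀)) : FN M) := by
  have hq : q.Prime := hqF.out
  obtain ⟨hfin, hdeg⟩ := finrank_ratForm M q K₀ hq hqM
  have hdeg' : finrankAlong Kb (heckeAlphaBar Kb M q) = q + 1 :=
    Fermat.Agent.S37.H87.finrankAlong_alpha_prime M q hq hqM
  exact norm_desc_of_equiv (alphaForm M q K₀) (betaForm M q K₀)
    (heckeAlphaBar Kb M q).toRingHom (heckeBetaBar Kb M q).toRingHom
    (algebraMap ↥(ratForm M K₀) (FN M)) (algebraMap ↥(ratForm (M * q) K₀) (FN (M * q)))
    (fun e => rfl) hfin (hdeg.trans hdeg'.symm)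
    (fun n f hf => linearIndependent_ratForm M q K₀ f hf)
    (wForm hTG K₀) w (wForm_alphaForm hTG K₀) hTG.w_alpha (fun y => rfl) x

end Beta

end Fermat.Agent.S35.H14
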