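/-
S35-GEO, leaf (L3) of helper27's table (helper14): the reductions (GA) of `S₀ u₀ / u₀` on the
concrete two-valuation model `S34.H30.stdV` — the conjunct `H27.FrobRed` of
`H27.FrobModelStatement`.

Model: `D = stdV M q A hAtop O₁ w K₀ ϖ j σ'` (`F₀ = ratForm (M q) K₀`, `A₀ = A ∩ K₀`, the two
Gauss rings `V₁ = O₁ ∩ F₀`, `V₂ = w⁻¹ O₁ ∩ F₀`), `S₀ = (tauForm (M q) K₀ σ).trans (tauForm …)` for a
Frobenius element `σ` at `A ∣ q`.  If the two norms of `u₀ ∈ F₀` to level `M` are `K₀`-constants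
times `m`-th powers of `K₀`-rational functions, then `S₀ u₀ / u₀` is congruent to a unit constant
times the `m`-th power of a common unit, modulo `m(V₁)` and modulo `m(V₂)`.

* `arithAut_heckeBetaBar` : the Galois action commutes with `β`;
* `frobRed_of_hasScale`   : `H27.FrobRed` from the three `ϖ`-adic scales (`H10.HasScale` of the
  Gauss ring of level `M` and of `V₁`, `V₂`) — ONE application of `H14.ga_abs` to
  `α = H64.alphaForm`, `β = H64.betaForm`, `s = tauForm M K₀ σ`, `S = tauForm (M q) K₀ σ`;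
* `hasScale_of_isBase`    : the three scales from an admissible base function (`H30.IsBase`);
* `frobRed_stdV`          : the leaf, in the binder block of `H30.OneCompLeaf`.
-/
import Fermat.Agent.S35.H14.GaAbs
import Fermat.Agent.S35.H14.NormDescForm
import Fermat.Agent.S35.H27.FrobModel
import Fermat.Agent.S35.H27.FrobLeaves
import Fermat.Agent.S35.H65.FrobSupply
import Fermat.Agent.S35.H10.FS3
import Fermat.Agent.S34.H61.Concrete3
import Fermat.Agent.S34.H59.FDeg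
import Fermat.Prelude.Thm_ModularCurve_coeffMap_qExpand

set_option autoImplicit false
set_option linter.style.haveILetI false
set_option linter.unusedSectionVars false

open AlgebraicCurve ModularCurve

noncomputable section

namespace Fermat.Agent.S35.H14

open Fermat.Agent.S18 Fermat.Agent.S18.H74 Fermat.Agent.S18.H19 Fermat.Agent.S34.H19
open Fermat.Agent.S34.H64
open Fermat.Agent.S34.H61 (ratForm tauForm gaussTwo coe_tauForm map_mem_of_normal)

/-- The Galois action commutes with `β`. -/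
theorem arithAut_heckeBetaBar (M q : ℕ) [NeZero M] [NeZero q] (s : Kb ≃ₐ[ℚ] Kb) (f : FN M) :
    arithmeticRingAut (modularFunctionFieldFull (M * q)) s (heckeBetaBar Kb M q f)
      = heckeBetaBar Kb M q (arithmeticRingAut (modularFunctionFieldFull M) s f) := by
  apply Subtype.ext
  rw [coe_arithmeticRingAut_apply, coe_heckeBetaBar, coe_heckeBetaBar,
    coe_arithmeticRingAut_apply]
  exact ModularCurve.coeffMap_qExpand (s : Kb →+* Kb) q _

/-- The `ϖ`-adic scale in valuation form. -/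
theorem valuation_eq_one_of_hasScale {A₀ : Type*} [CommRing A₀] {F : Type*} [Field F]
    [Algebra A₀ F] {ϖ : A₀} {V : ValuationSubring F}
    (hsc : Fermat.Agent.S34.H10.HasScale ϖ V) (hπ0 : algebraMap A₀ F ϖ ≠ 0) (y : F)
    (hy : y ≠ 0) : ∃ n : ℤ, V.valuation (y / algebraMap A₀ F ϖ ^ n) = 1 := by
  obtain ⟨n, hn⟩ := hsc y hy
  exact ⟨n, (Fermat.Agent.S34.H10.isU_iff_valuation_eq_one V
    (div_ne_zero hy (zpow_ne_zero n hπ0))).1 hn⟩

section Node

variable {M q : ℕ} [NeZero M] [hqF : Fact q.Prime] {hqM : ¬ q ∣ M} {A : ValuationSubring Kb}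
  {hA : A.LiesOverPrime q} {O₁ : ValuationSubring (FN (M * q))}
  {w : FN (M * q) ≃+* FN (M * q)}

/-- `(O₁ ∩ F₀) ∩ α(E₀) = α(O_M ∩ E₀)`, as an equality of valuation subrings. -/
theorem comap_alphaForm₁ (hTG : TwoGauss M q hqM A hA O₁ w) (K₀ : IntermediateField ℚ Kb) :
    (O₁.comap (algebraMap ↥(ratForm (M * q) K₀) (FN (M * q)))).comap (alphaForm M q K₀)
      = (Fermat.Agent.S18.H66.gaussO A M hA hqM).comap (algebraMap ↥(ratForm M K₀) (FN M)) := by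
  ext x
  exact hTG.alpha_mem_iff (x : FN M)

/-- `(O₂ ∩ F₀) ∩ α(E₀) = α(O_M ∩ E₀)`. -/
theorem comap_alphaForm₂ (hTG : TwoGauss M q hqM A hA O₁ w) (K₀ : IntermediateField ℚ Kb) :
    ((gaussTwo M q O₁ w).comap (algebraMap ↥(ratForm (M * q) K₀) (FN (M * q)))).comap
        (alphaForm M q K₀)
      = (Fermat.Agent.S18.H66.gaussO A M hA hqM).comap (algebraMap ↥(ratForm M K₀) (FN M)) := by
  ext x
  exact hTG.alpha_mem_iff₂ (x : FN M)

/-- `(O₁ ∩ F₀) ∩ β(E₀) = β(O_M ∩ E₀)`. -/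
theorem comap_betaForm₁ (hTG : TwoGauss M q hqM A hA O₁ w) (K₀ : IntermediateField ℚ Kb) :
    (O₁.comap (algebraMap ↥(ratForm (M * q) K₀) (FN (M * q)))).comap (betaForm M q K₀)
      = (Fermat.Agent.S18.H66.gaussO A M hA hqM).comap (algebraMap ↥(ratForm M K₀) (FN M)) := by
  ext x
  exact hTG.beta_mem_iff (x : FN M)

/-- `(O₂ ∩ F₀) ∩ β(E₀) = β(O_M ∩ E₀)`. -/
theorem comap_betaForm₂ (hTG : TwoGauss M q hqM A hA O₁ w) (K₀ : IntermediateField ℚ Kb) :
    ((gaussTwo M q O₁ w).comap (algebraMap ↥(ratForm (M * q) K₀) (FN (M * q)))).comap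
        (betaForm M q K₀)
      = (Fermat.Agent.S18.H66.gaussO A M hA hqM).comap (algebraMap ↥(ratForm M K₀) (FN M)) := by
  ext x
  exact hTG.beta_mem_iff₂ (x : FN M)

set_option maxHeartbeats 1600000 in
/-- **(GA) on the `K₀`-forms**: the reductions of `σ² u₀ / u₀` modulo the two Gauss rings, from
the three `ϖ`-adic scales. -/
theorem ga_ratForm (hTG : TwoGauss M q hqM A hA O₁ w) (K₀ : IntermediateField ℚ Kb)
    [Normal ℚ K₀] (ϖ : ↥(A.comap (algebraMap K₀ Kb))) (hϖ : Irreducible ϖ)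
    (hsc₀ : letI := algComap (A.comap (algebraMap K₀ Kb)) (ratForm M K₀)
      Fermat.Agent.S34.H10.HasScale ϖ
        ((Fermat.Agent.S18.H66.gaussO A M hA hqM).comap (algebraMap ↥(ratForm M K₀) (FN M))))
    (hsc₁ : letI := algComap (A.comap (algebraMap K₀ Kb)) (ratForm (M * q) K₀)
      Fermat.Agent.S34.H10.HasScale ϖ
        (O₁.comap (algebraMap ↥(ratForm (M * q) K₀) (FN (M * q)))))
    (hsc₂ : letI := algComap (A.comap (algebraMap K₀ Kb)) (ratForm (M * q) K₀)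
      Fermat.Agent.S34.H10.HasScale ϖ
        ((gaussTwo M q O₁ w).comap (algebraMap ↥(ratForm (M * q) K₀) (FN (M * q)))))
    (σ : Kb ≃ₐ[ℚ] Kb) (hσ : A.IsFrobeniusAt σ q)
    (m : ℕ) (u₀ : ↥(ratForm (M * q) K₀)) (hu₀ : u₀ ≠ 0)
    (c c' : K₀) (h h' : ↥(ratForm M K₀))
    (hNα : (letI := algebraAlong (heckeAlphaBar Kb M q)
        Algebra.norm (FN M) (u₀ : FN (M * q)))
      = algebraMap Kb (FN M) (c : Kb) * (h : FN M) ^ m)
    (hNβ : (letI := algebraAlong (heckeBetaBar Kb M q)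
        Algebra.norm (FN M) (u₀ : FN (M * q)))
      = algebraMap Kb (FN M) (c' : Kb) * (h' : FN M) ^ m) :
    ∃ (e₁ e₂ : (↥(A.comap (algebraMap K₀ Kb)))ˣ) (H₁ H₂ : ↥(ratForm M K₀)),
      ((Fermat.Agent.S18.H66.gaussO A M hA hqM).comap
        (algebraMap ↥(ratForm M K₀) (FN M))).valuation H₁ = 1 ∧
      ((Fermat.Agent.S18.H66.gaussO A M hA hqM).comap
        (algebraMap ↥(ratForm M K₀) (FN M))).valuation H₂ = 1 ∧
      tauForm (M * q) K₀ σ (tauForm (M * q) K₀ σ u₀) / u₀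
          - algebraMap K₀ ↥(ratForm (M * q) K₀) ((e₁ : ↥(A.comap (algebraMap K₀ Kb))) : K₀)
            * alphaForm M q K₀ H₁ ^ m ∈
        (O₁.comap (algebraMap ↥(ratForm (M * q) K₀) (FN (M * q)))).nonunits ∧
      tauForm (M * q) K₀ σ (tauForm (M * q) K₀ σ u₀) / u₀
          - algebraMap K₀ ↥(ratForm (M * q) K₀) ((e₂ : ↥(A.comap (algebraMap K₀ Kb))) : K₀)
            * betaForm M q K₀ H₂ ^ m ∈
        ((gaussTwo M q O₁ w).comap
          (algebraMap ↥(ratForm (M * q) K₀) (FN (M * q)))).nonunits := by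
  classical
  have hq : q.Prime := hqF.out
  have hd : σ ∈ A.decompositionSubgroup ℚ := hσ.mem_decompositionSubgroup
  have hd' : σ.symm ∈ A.decompositionSubgroup ℚ := (A.decompositionSubgroup ℚ).inv_mem hd
  have hjM : Fermat.Agent.S24.jgen M ∈ ratForm M K₀ := jgen_mem_ratForm M K₀
  -- constants in the Gauss ring of level `M`
  have hmemA : ∀ a : Kb,
      algebraMap Kb (FN M) a ∈ Fermat.Agent.S18.H66.gaussO A M hA hqM ↔ a ∈ A := fun a => by
    rw [← gaussQ_eq_gaussO A hA M hqM]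
    exact algebraMap_mem_gaussQ_iff A hA M a
  have hnuA : ∀ a : Kb,
      algebraMap Kb (FN M) a ∈ (Fermat.Agent.S18.H66.gaussO A M hA hqM).nonunits ↔
        a ∈ A.nonunits := fun a =>
    mem_nonunits_iff_of_mem_iff (algebraMap Kb (FN M)) A _ hmemA a
  -- degrees
  obtain ⟨hfinα, hrkα⟩ := finrank_ratForm M q K₀ hq hqM
  have hfinβ := finite_betaForm hTG K₀
  have hrkβ := finrank_betaForm hTG K₀
  -- `q` is not a unit of the Gauss ring of level `M`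
  have hqV : ((q : ℕ) : ↥(ratForm M K₀)) ∈ ((Fermat.Agent.S18.H66.gaussO A M hA hqM).comap
      (algebraMap ↥(ratForm M K₀) (FN M))).nonunits := by
    rw [mem_nonunits_comap_iff, map_natCast]
    have h1 : ((q : Kb)) ∈ A.nonunits := hA
    have h2 := (hnuA (q : Kb)).mpr h1
    rwa [map_natCast] at h2
  -- the four restrictions
  have hα₁ := comap_alphaForm₁ hTG K₀
  have hα₂ := comap_alphaForm₂ hTG K₀
  have hβ₁ := comap_betaForm₁ hTG K₀
  have hβ₂ := comap_betaForm₂ hTG K₀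
  have hne := Fermat.Agent.S35.H10.ne_ratForm hTG K₀
  -- the two-extension witnesses
  have hyα : betaForm M q K₀ ⟨Fermat.Agent.S24.jgen M, hjM⟩ ∈
      (gaussTwo M q O₁ w).comap (algebraMap ↥(ratForm (M * q) K₀) (FN (M * q))) :=
    hTG.betaj_mem₂
  have hyαq : ∃ v ∈ (Fermat.Agent.S18.H66.gaussO A M hA hqM).comap
      (algebraMap ↥(ratForm M K₀) (FN M)),
      betaForm M q K₀ ⟨Fermat.Agent.S24.jgen M, hjM⟩ ^ q - alphaForm M q K₀ v ∈
        ((gaussTwo M q O₁ w).comap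
          (algebraMap ↥(ratForm (M * q) K₀) (FN (M * q)))).nonunits := by
    refine ⟨⟨Fermat.Agent.S24.jgen M, hjM⟩, hTG.jgen_mem, ?_⟩
    rw [mem_nonunits_comap_iff]
    exact hTG.betaj_pow_sub_mem_nonunits₂
  have hyαn : ∀ v ∈ (Fermat.Agent.S18.H66.gaussO A M hA hqM).comap
      (algebraMap ↥(ratForm M K₀) (FN M)),
      betaForm M q K₀ ⟨Fermat.Agent.S24.jgen M, hjM⟩ - alphaForm M q K₀ v ∉
        ((gaussTwo M q O₁ w).comap
          (algebraMap ↥(ratForm (M * q) K₀) (FN (M * q)))).nonunits := by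
    intro v hv hmem
    rw [mem_nonunits_comap_iff] at hmem
    exact hTG.betaj_sub_alpha_not_mem₂ (v : FN M) hv hmem
  have hyβ : alphaForm M q K₀ ⟨Fermat.Agent.S24.jgen M, hjM⟩ ∈
      O₁.comap (algebraMap ↥(ratForm (M * q) K₀) (FN (M * q))) :=
    (hTG.alpha_mem_iff _).mpr hTG.jgen_mem
  have hyβq : ∃ v ∈ (Fermat.Agent.S18.H66.gaussO A M hA hqM).comap
      (algebraMap ↥(ratForm M K₀) (FN M)),
      alphaForm M q K₀ ⟨Fermat.Agent.S24.jgen M, hjM⟩ ^ q - betaForm M q K₀ v ∈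
        (O₁.comap (algebraMap ↥(ratForm (M * q) K₀) (FN (M * q)))).nonunits := by
    refine ⟨⟨Fermat.Agent.S24.jgen M, hjM⟩, hTG.jgen_mem, ?_⟩
    rw [mem_nonunits_comap_iff]
    have h1 := hTG.sep_mem_nonunits
    rw [ValuationSubring.mem_nonunits_iff] at h1 ⊢
    have e : algebraMap ↥(ratForm (M * q) K₀) (FN (M * q))
        (alphaForm M q K₀ ⟨Fermat.Agent.S24.jgen M, hjM⟩ ^ q
          - betaForm M q K₀ ⟨Fermat.Agent.S24.jgen M, hjM⟩)
        = -(heckeBetaBar Kb M q (Fermat.Agent.S24.jgen M) -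
            heckeAlphaBar Kb M q (Fermat.Agent.S24.jgen M) ^ q) := by
      rw [neg_sub]
      rfl
    rw [e, Valuation.map_neg]
    exact h1
  have hyβn : ∀ v ∈ (Fermat.Agent.S18.H66.gaussO A M hA hqM).comap
      (algebraMap ↥(ratForm M K₀) (FN M)),
      alphaForm M q K₀ ⟨Fermat.Agent.S24.jgen M, hjM⟩ - betaForm M q K₀ v ∉
        (O₁.comap (algebraMap ↥(ratForm (M * q) K₀) (FN (M * q)))).nonunits := by
    intro v hv hmem
    rw [mem_nonunits_comap_iff] at hmem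
    exact hTG.j_sub_beta_not_mem (v : FN M) hv hmem
  -- the uniformiser
  have hϖK : (ϖ : K₀) ≠ 0 := fun h0 => hϖ.ne_zero (Subtype.ext h0)
  have hϖKb : ((ϖ : K₀) : Kb) ≠ 0 := fun h0 => hϖK (Subtype.ext h0)
  have hϖA : ((ϖ : K₀) : Kb) ∈ A.nonunits := by
    rw [ValuationSubring.mem_nonunits_iff_or]
    right
    intro hinv
    apply hϖ.not_isUnit
    have hmem : ((ϖ : K₀))⁻¹ ∈ A.comap (algebraMap K₀ Kb) := by
      show algebraMap K₀ Kb ((ϖ : K₀))⁻¹ ∈ A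
      rw [map_inv₀]
      exact hinv
    exact IsUnit.of_mul_eq_one (⟨((ϖ : K₀))⁻¹, hmem⟩ : ↥(A.comap (algebraMap K₀ Kb)))
      (Subtype.ext (mul_inv_cancel₀ hϖK))
  have hπ0 : algebraMap K₀ ↥(ratForm M K₀) (ϖ : K₀) ≠ 0 :=
    (map_ne_zero (algebraMap K₀ ↥(ratForm M K₀))).2 hϖK
  have hπ0' : algebraMap K₀ ↥(ratForm (M * q) K₀) (ϖ : K₀) ≠ 0 :=
    (map_ne_zero (algebraMap K₀ ↥(ratForm (M * q) K₀))).2 hϖK
  have hπV : algebraMap K₀ ↥(ratForm M K₀) (ϖ : K₀) ∈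
      ((Fermat.Agent.S18.H66.gaussO A M hA hqM).comap
        (algebraMap ↥(ratForm M K₀) (FN M))).nonunits := by
    rw [mem_nonunits_comap_iff]
    exact (hnuA ((ϖ : K₀) : Kb)).mpr hϖA
  have hπ : ∀ a ∈ ((Fermat.Agent.S18.H66.gaussO A M hA hqM).comap
      (algebraMap ↥(ratForm M K₀) (FN M))).nonunits,
      a / algebraMap K₀ ↥(ratForm M K₀) (ϖ : K₀) ∈
        (Fermat.Agent.S18.H66.gaussO A M hA hqM).comap
          (algebraMap ↥(ratForm M K₀) (FN M)) := by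
    letI := algComap (A.comap (algebraMap K₀ Kb)) (ratForm M K₀)
    intro a ha
    exact Fermat.Agent.S34.H10.div_mem_of_hasScale hsc₀
      (ValuationSubring.nonunits_subset hπV) ha
  have hdV : ∀ a : ↥(ratForm M K₀), a ≠ 0 → ∃ i : ℤ,
      ((Fermat.Agent.S18.H66.gaussO A M hA hqM).comap
        (algebraMap ↥(ratForm M K₀) (FN M))).valuation
          (a / algebraMap K₀ ↥(ratForm M K₀) (ϖ : K₀) ^ i) = 1 := by
    letI := algComap (A.comap (algebraMap K₀ Kb)) (ratForm M K₀)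
    intro a ha
    exact valuation_eq_one_of_hasScale hsc₀ hπ0 a ha
  have hαπ : alphaForm M q K₀ (algebraMap K₀ ↥(ratForm M K₀) (ϖ : K₀))
      = algebraMap K₀ ↥(ratForm (M * q) K₀) (ϖ : K₀) := alphaForm_algebraMap K₀ (ϖ : K₀)
  have hd₁ : ∀ x : ↥(ratForm (M * q) K₀), x ≠ 0 → ∃ i : ℤ,
      (O₁.comap (algebraMap ↥(ratForm (M * q) K₀) (FN (M * q)))).valuation
        (x / alphaForm M q K₀ (algebraMap K₀ ↥(ratForm M K₀) (ϖ : K₀)) ^ i) = 1 := by
    letI := algComap (A.comap (algebraMap K₀ Kb)) (ratForm (M * q) K₀)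
    intro x hx
    rw [hαπ]
    exact valuation_eq_one_of_hasScale hsc₁ hπ0' x hx
  have hd₂ : ∀ x : ↥(ratForm (M * q) K₀), x ≠ 0 → ∃ i : ℤ,
      ((gaussTwo M q O₁ w).comap
        (algebraMap ↥(ratForm (M * q) K₀) (FN (M * q)))).valuation
        (x / alphaForm M q K₀ (algebraMap K₀ ↥(ratForm M K₀) (ϖ : K₀)) ^ i) = 1 := by
    letI := algComap (A.comap (algebraMap K₀ Kb)) (ratForm (M * q) K₀)
    intro x hx
    rw [hαπ]
    exact valuation_eq_one_of_hasScale hsc₂ hπ0' x hx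
  -- the constants
  have hαβ : ∀ a ∈ (algebraMap K₀ ↥(ratForm M K₀)).fieldRange,
      alphaForm M q K₀ a = betaForm M q K₀ a := by
    rintro _ ⟨d, rfl⟩
    rw [alphaForm_algebraMap K₀ d, betaForm_algebraMap K₀ d]
  -- the semilinear automorphisms
  have hSα : ∀ a : ↥(ratForm M K₀), tauForm (M * q) K₀ σ (alphaForm M q K₀ a)
      = alphaForm M q K₀ (tauForm M K₀ σ a) := fun a =>
    Subtype.ext (Fermat.Agent.S34.H61.arithmeticRingAut_heckeAlphaBar M q σ (a : FN M))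
  have hSβ : ∀ a : ↥(ratForm M K₀), tauForm (M * q) K₀ σ (betaForm M q K₀ a)
      = betaForm M q K₀ (tauForm M K₀ σ a) := fun a =>
    Subtype.ext (arithAut_heckeBetaBar M q σ (a : FN M))
  have hsK₀ : ∀ a ∈ (algebraMap K₀ ↥(ratForm M K₀)).fieldRange,
      tauForm M K₀ σ a ∈ (algebraMap K₀ ↥(ratForm M K₀)).fieldRange := by
    rintro _ ⟨d, rfl⟩
    refine ⟨⟨σ (d : Kb), map_mem_of_normal K₀ σ d.2⟩, ?_⟩
    apply Subtype.ext
    exact (arithmeticRingAut_algebraMap (modularFunctionFieldFull M) σ (d : Kb)).symm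
  have hsV : ∀ a : ↥(ratForm M K₀), tauForm M K₀ σ a ∈
      (Fermat.Agent.S18.H66.gaussO A M hA hqM).comap (algebraMap ↥(ratForm M K₀) (FN M)) ↔
      a ∈ (Fermat.Agent.S18.H66.gaussO A M hA hqM).comap
        (algebraMap ↥(ratForm M K₀) (FN M)) := fun a =>
    Fermat.Agent.S35.H65.tauForm_mem_comap_iff M K₀ σ _
      (fun f hf => Fermat.Agent.S37.H65.arithmeticRingAut_mem_gaussO A M hA hqM ⟨σ, hd⟩ hf)
      (fun f hf => Fermat.Agent.S37.H65.arithmeticRingAut_mem_gaussO A M hA hqM ⟨σ.symm, hd'⟩ hf)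
      a
  obtain ⟨hS₁, hS₂⟩ := Fermat.Agent.S34.H61.tauForm_twoGauss_iff hTG K₀ σ hd
  -- the Kronecker congruences
  have hK₁ : ∀ a ∈ (Fermat.Agent.S18.H66.gaussO A M hA hqM).comap
      (algebraMap ↥(ratForm M K₀) (FN M)),
      alphaForm M q K₀ a ^ q - betaForm M q K₀ (tauForm M K₀ σ a) ∈
        (O₁.comap (algebraMap ↥(ratForm (M * q) K₀) (FN (M * q)))).nonunits := by
    intro a ha
    rw [mem_nonunits_comap_iff]
    have h1 := hTG.kronecker σ hσ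
      (arithmeticRingAut (modularFunctionFieldFull M) σ (a : FN M)) ((hsV a).2 ha)
    have h2 : arithmeticRingAut (modularFunctionFieldFull M) σ⁻¹
        (arithmeticRingAut (modularFunctionFieldFull M) σ (a : FN M)) = (a : FN M) :=
      (arithmeticRingAut (modularFunctionFieldFull M) σ).symm_apply_apply (a : FN M)
    rw [h2] at h1
    rw [ValuationSubring.mem_nonunits_iff] at h1 ⊢
    have e : algebraMap ↥(ratForm (M * q) K₀) (FN (M * q))
        (alphaForm M q K₀ a ^ q - betaForm M q K₀ (tauForm M K₀ σ a))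
        = -(heckeBetaBar Kb M q (arithmeticRingAut (modularFunctionFieldFull M) σ (a : FN M)) -
            heckeAlphaBar Kb M q (a : FN M) ^ q) := by
      rw [neg_sub]
      rfl
    rw [e, Valuation.map_neg]
    exact h1
  have hK₂ : ∀ b ∈ (Fermat.Agent.S18.H66.gaussO A M hA hqM).comap
      (algebraMap ↥(ratForm M K₀) (FN M)),
      betaForm M q K₀ b ^ q - alphaForm M q K₀ (tauForm M K₀ σ b) ∈
        ((gaussTwo M q O₁ w).comap
          (algebraMap ↥(ratForm (M * q) K₀) (FN (M * q)))).nonunits := by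
    intro b hb
    rw [mem_nonunits_comap_iff]
    have h1 := hTG.kronecker₂ σ hσ
      (arithmeticRingAut (modularFunctionFieldFull M) σ (b : FN M)) ((hsV b).2 hb)
    have h2 : arithmeticRingAut (modularFunctionFieldFull M) σ⁻¹
        (arithmeticRingAut (modularFunctionFieldFull M) σ (b : FN M)) = (b : FN M) :=
      (arithmeticRingAut (modularFunctionFieldFull M) σ).symm_apply_apply (b : FN M)
    rw [h2] at h1
    have h1' : heckeAlphaBar Kb M q (arithmeticRingAut (modularFunctionFieldFull M) σ (b : FN M))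
        - heckeBetaBar Kb M q (b : FN M) ^ q ∈ (gaussTwo M q O₁ w).nonunits := h1
    rw [ValuationSubring.mem_nonunits_iff] at h1' ⊢
    have e : algebraMap ↥(ratForm (M * q) K₀) (FN (M * q))
        (betaForm M q K₀ b ^ q - alphaForm M q K₀ (tauForm M K₀ σ b))
        = -(heckeAlphaBar Kb M q (arithmeticRingAut (modularFunctionFieldFull M) σ (b : FN M)) -
            heckeBetaBar Kb M q (b : FN M) ^ q) := by
      rw [neg_sub]
      rfl
    rw [e, Valuation.map_neg]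
    exact h1'
  -- the norms on the `K₀`-forms
  have hNα' : (letI := (alphaForm M q K₀).toAlgebra; Algebra.norm ↥(ratForm M K₀) u₀)
      = algebraMap K₀ ↥(ratForm M K₀) c * h ^ m :=
    Subtype.ext ((norm_alphaForm M q K₀ hq hqM u₀).symm.trans hNα)
  have hNβ' : (letI := (betaForm M q K₀).toAlgebra; Algebra.norm ↥(ratForm M K₀) u₀)
      = algebraMap K₀ ↥(ratForm M K₀) c' * h' ^ m :=
    Subtype.ext ((norm_betaForm hTG K₀ u₀).symm.trans hNβ)
  -- (GA-ABS)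
  obtain ⟨_, ⟨d₁, rfl⟩, _, ⟨d₂, rfl⟩, H₁, H₂, hc₁, hc₂, hH₁, hH₂, hw₁, hw₂⟩ :=
    ga_abs (alphaForm M q K₀) (betaForm M q K₀) hfinα hfinβ
      ((Fermat.Agent.S18.H66.gaussO A M hA hqM).comap (algebraMap ↥(ratForm M K₀) (FN M)))
      q hq hqV hrkα hrkβ
      (O₁.comap (algebraMap ↥(ratForm (M * q) K₀) (FN (M * q))))
      ((gaussTwo M q O₁ w).comap (algebraMap ↥(ratForm (M * q) K₀) (FN (M * q))))
      hne hα₁ hα₂ hβ₁ hβ₂
      (betaForm M q K₀ ⟨Fermat.Agent.S24.jgen M, hjM⟩) hyα hyαq hyαn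
      (alphaForm M q K₀ ⟨Fermat.Agent.S24.jgen M, hjM⟩) hyβ hyβq hyβn
      (algebraMap K₀ ↥(ratForm M K₀) (ϖ : K₀)) hπ0 hπV hπ hdV hd₁ hd₂
      (algebraMap K₀ ↥(ratForm M K₀)).fieldRange ⟨(ϖ : K₀), rfl⟩ hαβ
      (tauForm M K₀ σ) (tauForm (M * q) K₀ σ) hSα hSβ hsK₀ hsV hS₁ hS₂ hK₁ hK₂
      m u₀ hu₀ (algebraMap K₀ ↥(ratForm M K₀) c) (algebraMap K₀ ↥(ratForm M K₀) c') h h'
      ⟨c, rfl⟩ ⟨c', rfl⟩ hNα' hNβ'
  -- unit constants
  have hunit : ∀ d : K₀, ((Fermat.Agent.S18.H66.gaussO A M hA hqM).comap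
      (algebraMap ↥(ratForm M K₀) (FN M))).valuation (algebraMap K₀ ↥(ratForm M K₀) d) = 1 →
      ∃ e : (↥(A.comap (algebraMap K₀ Kb)))ˣ, ((e : ↥(A.comap (algebraMap K₀ Kb))) : K₀) = d := by
    intro d hd1
    rw [val_eq_one_iff_mem] at hd1
    obtain ⟨hdm, hdn⟩ := hd1
    have hdA : (d : Kb) ∈ A := (hmemA (d : Kb)).1 hdm
    have hdnA : (d : Kb) ∉ A.nonunits := fun hnu => hdn (by
      rw [mem_nonunits_comap_iff]
      exact (hnuA (d : Kb)).2 hnu)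
    rw [ValuationSubring.mem_nonunits_iff_or, not_or, not_not] at hdnA
    have hd0 : d ≠ 0 := fun h0 => hdnA.1 (by rw [h0]; rfl)
    have hinv : (d⁻¹ : K₀) ∈ A.comap (algebraMap K₀ Kb) := by
      show algebraMap K₀ Kb (d⁻¹ : K₀) ∈ A
      rw [map_inv₀]
      exact hdnA.2
    exact ⟨⟨⟨d, hdA⟩, ⟨d⁻¹, hinv⟩, Subtype.ext (mul_inv_cancel₀ hd0),
      Subtype.ext (inv_mul_cancel₀ hd0)⟩, rfl⟩
  obtain ⟨e₁, he₁⟩ := hunit d₁ hc₁
  obtain ⟨e₂, he₂⟩ := hunit d₂ hc₂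
  refine ⟨e₁, e₂, H₁, H₂, hH₁, hH₂, ?_, ?_⟩
  · rw [he₁, ← alphaForm_algebraMap K₀ d₁]
    exact hw₁
  · rw [he₂, ← alphaForm_algebraMap K₀ d₂]
    exact hw₂

/-- **The three `ϖ`-adic scales** (of the Gauss ring of level `M` and of the two Gauss rings of
level `M q`, all restricted to the `K₀`-forms) from an admissible base function. -/
theorem hasScale_of_isBase (hTG : TwoGauss M q hqM A hA O₁ w) (hAtop : A ≠ ⊤) (x₀ : FN M)
    (hx₀ : Fermat.Agent.S34.H30.IsBase M q hqM A hA x₀) (K₀ : IntermediateField ℚ Kb)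
    [FiniteDimensional ℚ K₀] (ϖ : ↥(A.comap (algebraMap K₀ Kb))) (hϖ : Irreducible ϖ) :
    (letI := algComap (A.comap (algebraMap K₀ Kb)) (ratForm M K₀);
      Fermat.Agent.S34.H10.HasScale ϖ
        ((Fermat.Agent.S18.H66.gaussO A M hA hqM).comap (algebraMap ↥(ratForm M K₀) (FN M)))) ∧
    (letI := algComap (A.comap (algebraMap K₀ Kb)) (ratForm (M * q) K₀);
      Fermat.Agent.S34.H10.HasScale ϖ
        (O₁.comap (algebraMap ↥(ratForm (M * q) K₀) (FN (M * q))))) ∧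
    (letI := algComap (A.comap (algebraMap K₀ Kb)) (ratForm (M * q) K₀);
      Fermat.Agent.S34.H10.HasScale ϖ
        ((gaussTwo M q O₁ w).comap (algebraMap ↥(ratForm (M * q) K₀) (FN (M * q))))) := by
  haveI : NeZero q := ⟨hqF.out.ne_zero⟩
  haveI : IsDiscreteValuationRing ↥(A.comap (algebraMap K₀ Kb)) :=
    Fermat.Agent.S34.H78.isDVR_comap hAtop K₀
  have hxmem : x₀ ∈ ratForm M K₀ := Fermat.Agent.S34.H61.mem_ratForm_of_mem_range M K₀ hx₀.1
  obtain ⟨hS, hS'⟩ := hx₀.2 K₀ hxmem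
  have hdeg := Fermat.Agent.S34.H59.finrank_alphaForm M q K₀ hqF.out hqM
  have hG := Fermat.Agent.S34.H61.vGood_ratForm_of_finrank hTG K₀ ϖ hϖ ⟨x₀, hxmem⟩ hS hS' hdeg
  obtain ⟨-, -, -, -, -, -, -, -, -, -, -, -, hs1, hs2, -, -⟩ := hG
  refine ⟨?_, hs1, hs2⟩
  letI := algComap (A.comap (algebraMap K₀ Kb)) (ratForm M K₀)
  exact Fermat.Agent.S34.H10.hasScale_of_dsetup hϖ hS

/-- **(L3) from the scales**: `H27.FrobRed` on the concrete model from the three `ϖ`-adic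
scales.  The coordinate `j` and the inertia slot `σ'` of the model are arbitrary. -/
theorem frobRed_of_hasScale (hTG : TwoGauss M q hqM A hA O₁ w) (hAtop : A ≠ ⊤)
    (K₀ : IntermediateField ℚ Kb) [FiniteDimensional ℚ K₀] [Normal ℚ K₀]
    (ϖ : ↥(A.comap (algebraMap K₀ Kb))) (hϖ : Irreducible ϖ)
    (hsc₀ : letI := algComap (A.comap (algebraMap K₀ Kb)) (ratForm M K₀)
      Fermat.Agent.S34.H10.HasScale ϖ
        ((Fermat.Agent.S18.H66.gaussO A M hA hqM).comap (algebraMap ↥(ratForm M K₀) (FN M))))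
    (hsc₁ : letI := algComap (A.comap (algebraMap K₀ Kb)) (ratForm (M * q) K₀)
      Fermat.Agent.S34.H10.HasScale ϖ
        (O₁.comap (algebraMap ↥(ratForm (M * q) K₀) (FN (M * q)))))
    (hsc₂ : letI := algComap (A.comap (algebraMap K₀ Kb)) (ratForm (M * q) K₀)
      Fermat.Agent.S34.H10.HasScale ϖ
        ((gaussTwo M q O₁ w).comap (algebraMap ↥(ratForm (M * q) K₀) (FN (M * q)))))
    (j : ↥(ratForm (M * q) K₀)) (σ' σ : Kb ≃ₐ[ℚ] Kb) (hσ : A.IsFrobeniusAt σ q)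
    (m : ℕ) (u₀ : ↥(ratForm (M * q) K₀)) (hu₀ : u₀ ≠ 0)
    (c c' : Kb) (hc : c ∈ K₀) (hc' : c' ∈ K₀) (h h' : FN M) (hh : h ∈ ratForm M K₀)
    (hh' : h' ∈ ratForm M K₀)
    (hNα : Fermat.Agent.S37.H36.normAlong (heckeAlphaBar Kb M q) (u₀ : FN (M * q))
      = algebraMap Kb (FN M) c * h ^ m)
    (hNβ : Fermat.Agent.S37.H36.normAlong (heckeBetaBar Kb M q) (u₀ : FN (M * q))
      = algebraMap Kb (FN M) c' * h' ^ m) :
    Fermat.Agent.S35.H27.FrobRed (Fermat.Agent.S34.H30.stdV M q A hAtop O₁ w K₀ ϖ j σ') m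
      (((tauForm (M * q) K₀ σ).trans (tauForm (M * q) K₀ σ)) u₀ / u₀) := by
  obtain ⟨e₁, e₂, H₁, H₂, hH₁, hH₂, hw₁, hw₂⟩ := ga_ratForm hTG K₀ ϖ hϖ hsc₀ hsc₁ hsc₂ σ hσ m
    u₀ hu₀ ⟨c, hc⟩ ⟨c', hc'⟩ ⟨h, hh⟩ ⟨h', hh'⟩ hNα hNβ
  refine ⟨e₁, e₂, alphaForm M q K₀ H₁, betaForm M q K₀ H₂, ?_, ?_, ?_, ?_, hw₁, hw₂⟩
  · exact (hom_val_eq_one_iff (alphaForm M q K₀) (comap_alphaForm₁ hTG K₀) H₁).2 hH₁
  · exact (hom_val_eq_one_iff (alphaForm M q K₀) (comap_alphaForm₂ hTG K₀) H₁).2 hH₁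
  · exact (hom_val_eq_one_iff (betaForm M q K₀) (comap_betaForm₁ hTG K₀) H₂).2 hH₂
  · exact (hom_val_eq_one_iff (betaForm M q K₀) (comap_betaForm₂ hTG K₀) H₂).2 hH₂

end Node

section Leaf

variable {M q : ℕ} [NeZero M] [hqF : Fact q.Prime]

/-- **Leaf (L3) of S35-GEO**: the reductions (GA) of `S₀ u₀ / u₀` on the concrete model, in the
binder block of `H30.OneCompLeaf` (the coordinate `j` and the inertia slot `σ'` are arbitrary).
`σ` is a Frobenius element at `A`, `S₀ = (tauForm (M q) K₀ σ).trans (tauForm (M q) K₀ σ)`, and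
the two norms of `u₀` to level `M` are `K₀`-constants times `m`-th powers in the `K₀`-form. -/
theorem frobRed_stdV (hqM : ¬ q ∣ M) (A : ValuationSubring Kb) (hA : A.LiesOverPrime q)
    (hAtop : A ≠ ⊤) (O₁ : ValuationSubring (FN (M * q))) (w : FN (M * q) ≃+* FN (M * q))
    (hTG : TwoGauss M q hqM A hA O₁ w) (x₀ : FN M)
    (hx₀ : Fermat.Agent.S34.H30.IsBase M q hqM A hA x₀)
    (K₀ : IntermediateField ℚ Kb) [FiniteDimensional ℚ K₀] [Normal ℚ K₀]
    (ϖ : ↥(A.comap (algebraMap K₀ Kb))) (hϖ : Irreducible ϖ)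
    (j : ↥(ratForm (M * q) K₀)) (σ' σ : Kb ≃ₐ[ℚ] Kb) (hσ : A.IsFrobeniusAt σ q)
    (m : ℕ) (u₀ : ↥(ratForm (M * q) K₀)) (hu₀ : u₀ ≠ 0)
    (c c' : Kb) (hc : c ∈ K₀) (hc' : c' ∈ K₀) (h h' : FN M) (hh : h ∈ ratForm M K₀)
    (hh' : h' ∈ ratForm M K₀)
    (hNα : Fermat.Agent.S37.H36.normAlong (heckeAlphaBar Kb M q) (u₀ : FN (M * q))
      = algebraMap Kb (FN M) c * h ^ m)
    (hNβ : Fermat.Agent.S37.H36.normAlong (heckeBetaBar Kb M q) (u₀ : FN (M * q))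
      = algebraMap Kb (FN M) c' * h' ^ m) :
    Fermat.Agent.S35.H27.FrobRed (Fermat.Agent.S34.H30.stdV M q A hAtop O₁ w K₀ ϖ j σ') m
      (((tauForm (M * q) K₀ σ).trans (tauForm (M * q) K₀ σ)) u₀ / u₀) := by
  obtain ⟨hsc₀, hsc₁, hsc₂⟩ := hasScale_of_isBase hTG hAtop x₀ hx₀ K₀ ϖ hϖ
  exact frobRed_of_hasScale hTG hAtop K₀ ϖ hϖ hsc₀ hsc₁ hsc₂ j σ' σ hσ m u₀ hu₀ c c' hc hc'
    h h' hh hh' hNα hNβ

/-- **Leaf (L3) of S35-GEO, in the exact form of `H27.FrobRedLeaf`.** -/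
theorem frobRedLeaf : Fermat.Agent.S35.H27.FrobRedLeaf := by
  intro M q _ _ hqM A hA hAtop O₁ w hTG x₀ hx₀ K₀ _ _ ϖ hϖ j _ σ σ' hσ m u₀ hu₀ hα hβ
  obtain ⟨c, h, hNα⟩ := hα
  obtain ⟨c', h', hNβ⟩ := hβ
  exact frobRed_stdV hqM A hA hAtop O₁ w hTG x₀ hx₀ K₀ ϖ hϖ j σ' σ hσ m u₀ hu₀ (c : Kb)
    (c' : Kb) c.2 c'.2 (h : FN M) (h' : FN M) h.2 h'.2 hNα hNβ

end Leaf

end Fermat.Agent.S35.H14
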